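import Mathlib
import Fermat.Prelude.Def_AlgebraicCurve_CanonicalDivisor

/-!
# X-ALG: basic facts on `Place.ord`

General lemmas relating `Place.ord` to membership in the valuation ring, ultrametric inequality,
constants.
-/

set_option autoImplicit false

open AlgebraicCurve IsDedekindDomain WithZero

namespace Fermat.Agent.X0

variable {K F : Type*} [Field K] [Field F] [Algebra K F] (v : Place K F)

theorem Place.ord_eq_neg_log (f : F) : v.ord f = - log (v.adicValuation f) := rfl

theorem Place.adicValuation_eq_exp_neg_ord {f : F} (hf : f ≠ 0) :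
    v.adicValuation f = exp (- v.ord f) := by
  rw [Place.ord_eq_neg_log, neg_neg, exp_log (v.adicValuation_ne_zero hf)]

theorem Place.adicValuation_le_iff {f g : F} (hf : f ≠ 0) (hg : g ≠ 0) :
    v.adicValuation f ≤ v.adicValuation g ↔ v.ord g ≤ v.ord f := by
  rw [Place.adicValuation_eq_exp_neg_ord v hf, Place.adicValuation_eq_exp_neg_ord v hg,
    exp_le_exp, neg_le_neg_iff]

theorem Place.ord_nonneg_of_mem {f : F} (hf : f ∈ v.toValuationSubring) : 0 ≤ v.ord f := by
  rcases eq_or_ne f 0 with rfl | hf0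
  · simp
  have h1 : v.adicValuation f ≤ 1 := by
    have := v.adicValuation_coe ⟨f, hf⟩
    simp only at this
    rw [this]
    exact v.heightOneSpectrum.intValuation_le_one _
  rw [Place.adicValuation_eq_exp_neg_ord v hf0, ← exp_zero, exp_le_exp] at h1
  omega

theorem Place.mem_of_ord_nonneg {f : F} (hf : 0 ≤ v.ord f) : f ∈ v.toValuationSubring := by
  rcases eq_or_ne f 0 with rfl | hf0
  · exact zero_mem _
  obtain ⟨π, hπ⟩ := IsDiscreteValuationRing.exists_irreducible v.toValuationSubring
  obtain ⟨u, hu⟩ := v.exists_unit_mul_zpow hf0 hπ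
  rw [hu]
  refine mul_mem (Subtype.mem _) ?_
  obtain ⟨n, hn⟩ := Int.eq_ofNat_of_zero_le hf
  rw [hn, zpow_natCast]
  exact pow_mem (Subtype.mem _) n

theorem Place.mem_iff_ord_nonneg {f : F} : f ∈ v.toValuationSubring ↔ 0 ≤ v.ord f :=
  ⟨Place.ord_nonneg_of_mem v, Place.mem_of_ord_nonneg v⟩

theorem Place.inv_mem_of_ord_nonpos {f : F} (hf : v.ord f ≤ 0) : f⁻¹ ∈ v.toValuationSubring := by
  apply Place.mem_of_ord_nonneg
  rw [v.ord_inv]
  omega

/-- Ultrametric inequality. -/
theorem Place.le_ord_add {f g : F} (hfg : f + g ≠ 0) (n : ℤ) (hf : n ≤ v.ord f ∨ f = 0)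
    (hg : n ≤ v.ord g ∨ g = 0) : n ≤ v.ord (f + g) := by
  have key : ∀ {h : F}, h ≠ 0 → (n ≤ v.ord h ↔ v.adicValuation h ≤ exp (-n)) := by
    intro h hh
    rw [Place.adicValuation_eq_exp_neg_ord v hh, exp_le_exp, neg_le_neg_iff]
  rw [key hfg]
  refine le_trans (v.adicValuation.map_add f g) (max_le ?_ ?_)
  · rcases eq_or_ne f 0 with rfl | hf0
    · simp
    · exact (key hf0).mp (hf.resolve_right hf0)
  · rcases eq_or_ne g 0 with rfl | hg0
    · simp
    · exact (key hg0).mp (hg.resolve_right hg0)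

theorem Place.min_le_ord_add {f g : F} (hf : f ≠ 0) (hg : g ≠ 0) (hfg : f + g ≠ 0) :
    min (v.ord f) (v.ord g) ≤ v.ord (f + g) :=
  Place.le_ord_add v hfg _ (Or.inl (min_le_left _ _)) (Or.inl (min_le_right _ _))

theorem Place.ord_neg (f : F) : v.ord (-f) = v.ord f := by
  rw [Place.ord_eq_neg_log, Place.ord_eq_neg_log, Valuation.map_neg]

theorem Place.ord_sub_comm (f g : F) : v.ord (f - g) = v.ord (g - f) := by
  rw [← Place.ord_neg, neg_sub]

/-- If `ord f < ord g` then `ord (f + g) = ord f`. -/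
theorem Place.ord_add_eq_of_lt {f g : F} (hf : f ≠ 0) (hg : g ≠ 0) (h : v.ord f < v.ord g) :
    v.ord (f + g) = v.ord f := by
  have hval : v.adicValuation g < v.adicValuation f := by
    rw [Place.adicValuation_eq_exp_neg_ord v hf, Place.adicValuation_eq_exp_neg_ord v hg,
      exp_lt_exp]
    omega
  have := Valuation.map_add_eq_of_lt_left v.adicValuation hval
  rw [Place.ord_eq_neg_log, this, ← Place.ord_eq_neg_log]

theorem Place.ord_algebraMap (a : K) : v.ord (algebraMap K F a) = 0 := by
  rcases eq_or_ne a 0 with rfl | ha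
  · simp
  have h1 : 0 ≤ v.ord (algebraMap K F a) := Place.ord_nonneg_of_mem v (v.algebraMap_mem' a)
  have h2 : 0 ≤ v.ord (algebraMap K F a⁻¹) := Place.ord_nonneg_of_mem v (v.algebraMap_mem' a⁻¹)
  rw [map_inv₀, v.ord_inv] at h2
  omega

theorem Place.ord_pow (f : F) (n : ℕ) : v.ord (f ^ n) = n * v.ord f := by
  rw [← zpow_natCast, v.ord_zpow]

/-- `ord` of a sum with a constant: if `0 < ord f` and `a ≠ 0` then `ord (f + a) = 0`. -/
theorem Place.ord_add_algebraMap_of_pos {f : F} (hf : 0 < v.ord f) {a : K} (ha : a ≠ 0) :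
    v.ord (f + algebraMap K F a) = 0 := by
  have ha' : algebraMap K F a ≠ 0 := (map_ne_zero _).mpr ha
  have hf0 : f ≠ 0 := by
    rintro rfl
    simp at hf
  rw [add_comm, Place.ord_add_eq_of_lt v ha' hf0 (by rw [Place.ord_algebraMap]; exact hf),
    Place.ord_algebraMap]

/-- Places are trivial on nonzero constants; an element of positive order is not a constant. -/
theorem Place.ord_pos_unique_constant {x : F} {a b : K} (ha : 0 < v.ord (x - algebraMap K F a))
    (hb : 0 < v.ord (x - algebraMap K F b)) : a = b := by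
  by_contra hab
  have h : x - algebraMap K F b = (x - algebraMap K F a) + algebraMap K F (a - b) := by
    rw [map_sub]; ring
  rw [h, Place.ord_add_algebraMap_of_pos v ha (sub_ne_zero.mpr hab)] at hb
  exact lt_irrefl _ hb

end Fermat.Agent.X0
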