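import Mathlib
import Fermat.Prelude.Def_AlgebraicCurve_CanonicalDivisor

/-!
# X-ALG (A1): places of a function field versus height-one primes of a Dedekind model

`K` a field, `F` a field over `K`, `R` a Dedekind domain with fraction field `F` (and a `K`-algebra).
The prelude has `Place.ofHeightOneSpectrum : HeightOneSpectrum R → Place K F`.  We prove

* `Place.ord_eq_neg_log_of_valuationSubring_eq` : normalisation of `Place.ord`;
* `Place.ord_ofHeightOneSpectrum` : `(ofHeightOneSpectrum w).ord f = - log (w.valuation F f)`;
* `Place.ofHeightOneSpectrum_injective`;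
* `Place.exists_ofHeightOneSpectrum_eq` : every place whose valuation ring contains `R` comes from
  a height-one prime of `R`.
-/

set_option autoImplicit false

open AlgebraicCurve IsDedekindDomain WithZero

namespace Fermat.Agent.X0

variable {K F : Type*} [Field K] [Field F] [Algebra K F]

section Normalisation

variable (v : Place K F) (val : Valuation F ℤᵐ⁰)

theorem Place.mem_iff_of_valuationSubring_eq
    (hsub : v.toValuationSubring = val.valuationSubring) (x : F) :
    x ∈ v.toValuationSubring ↔ val x ≤ 1 := by
  rw [hsub, Valuation.mem_valuationSubring_iff]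

/-- If the valuation ring of the place `v` is the valuation ring of a normalised `ℤᵐ⁰`-valued
valuation `val`, then `v.ord = - log ∘ val`. -/
theorem Place.ord_eq_neg_log_of_valuationSubring_eq
    (hsub : v.toValuationSubring = val.valuationSubring) {π : F} (hπ : val π = exp (-1 : ℤ))
    (f : F) : v.ord f = - log (val f) := by
  have hmem := Place.mem_iff_of_valuationSubring_eq v val hsub
  rcases eq_or_ne f 0 with rfl | hf
  · simp
  have hπ0 : π ≠ 0 := by
    rintro rfl
    rw [map_zero] at hπ
    exact WithZero.exp_ne_zero hπ.symm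
  have hπmem : π ∈ v.toValuationSubring := by
    rw [hmem, hπ, ← exp_zero, exp_le_exp]
    norm_num
  -- `π` is irreducible in `O_v`
  have hirr : Irreducible (⟨π, hπmem⟩ : v.toValuationSubring) := by
    rw [IsDiscreteValuationRing.irreducible_iff_uniformizer]
    apply le_antisymm
    · intro y hy
      rw [IsLocalRing.mem_maximalIdeal, mem_nonunits_iff] at hy
      rw [Ideal.mem_span_singleton]
      have hy1 : val (y : F) ≤ 1 := (hmem _).mp y.2
      have hylt : val (y : F) < 1 := by
        rcases lt_or_eq_of_le hy1 with h | h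
        · exact h
        · exfalso
          apply hy
          have hy0 : (y : F) ≠ 0 := by
            intro h0
            rw [h0, map_zero] at h
            exact zero_ne_one h
          have hinv : (y : F)⁻¹ ∈ v.toValuationSubring := by
            rw [hmem, map_inv₀, h, inv_one]
          exact IsUnit.of_mul_eq_one (⟨(y : F)⁻¹, hinv⟩ : v.toValuationSubring)
            (Subtype.ext (by simp [hy0]))
      have hyle : val (y : F) ≤ exp (-1 : ℤ) := by
        rcases eq_or_ne (val (y : F)) 0 with h0 | h0
        · rw [h0]; exact zero_le'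
        · rw [← exp_log h0, exp_le_exp]
          have : log (val (y : F)) < 0 := by
            rw [← exp_lt_exp, exp_log h0, exp_zero]
            exact hylt
          omega
      have hq : (y : F) * π⁻¹ ∈ v.toValuationSubring := by
        rw [hmem, map_mul, map_inv₀, hπ]
        calc val (y : F) * (exp (-1 : ℤ))⁻¹ ≤ exp (-1 : ℤ) * (exp (-1 : ℤ))⁻¹ :=
              mul_le_mul' hyle le_rfl
          _ = 1 := mul_inv_cancel₀ (by simp)
      exact ⟨⟨(y : F) * π⁻¹, hq⟩, Subtype.ext (by
        show (y : F) = π * ((y : F) * π⁻¹)
        field_simp)⟩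
    · rw [Ideal.span_le, Set.singleton_subset_iff, SetLike.mem_coe, IsLocalRing.mem_maximalIdeal,
        mem_nonunits_iff]
      intro hu
      have hinv : π⁻¹ ∈ v.toValuationSubring := by
        obtain ⟨u, hu'⟩ := hu
        have h1 : ((u⁻¹ : v.toValuationSubringˣ) : v.toValuationSubring) * ⟨π, hπmem⟩ = 1 := by
          rw [← hu']; exact u.inv_mul
        have h2 : (((u⁻¹ : v.toValuationSubringˣ) : v.toValuationSubring) : F) * π = 1 :=
          congrArg Subtype.val h1
        have h3 : π⁻¹ = (((u⁻¹ : v.toValuationSubringˣ) : v.toValuationSubring) : F) :=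
          (eq_inv_of_mul_eq_one_left h2).symm ▸ rfl
        rw [h3]
        exact Subtype.mem _
      rw [hmem, map_inv₀, hπ, ← exp_neg, ← exp_zero, exp_le_exp] at hinv
      norm_num at hinv
  -- write `f = u * π ^ n`
  have hvf : val f ≠ 0 := (Valuation.ne_zero_iff _).mpr hf
  set n : ℤ := - log (val f) with hn
  have hval_u : val (f * (π ^ n)⁻¹) = 1 := by
    rw [map_mul, map_inv₀, map_zpow₀, hπ, ← exp_zsmul, smul_eq_mul, hn]
    rw [show (- log (val f)) * (-1 : ℤ) = log (val f) by ring, exp_log hvf]
    exact mul_inv_cancel₀ hvf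
  have hu_mem : f * (π ^ n)⁻¹ ∈ v.toValuationSubring := by rw [hmem, hval_u]
  have hu_inv_mem : (f * (π ^ n)⁻¹)⁻¹ ∈ v.toValuationSubring := by
    rw [hmem, map_inv₀, hval_u, inv_one]
  have hu0 : f * (π ^ n)⁻¹ ≠ 0 := mul_ne_zero hf (inv_ne_zero (zpow_ne_zero _ hπ0))
  let u : v.toValuationSubringˣ :=
    ⟨⟨f * (π ^ n)⁻¹, hu_mem⟩, ⟨(f * (π ^ n)⁻¹)⁻¹, hu_inv_mem⟩,
      Subtype.ext (mul_inv_cancel₀ hu0), Subtype.ext (inv_mul_cancel₀ hu0)⟩
  have hfu : f = ((u : v.toValuationSubring) : F) * (((⟨π, hπmem⟩ : v.toValuationSubring) : F) ^ n) := by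
    show f = f * (π ^ n)⁻¹ * π ^ n
    rw [inv_mul_cancel_right₀ (zpow_ne_zero _ hπ0)]
  rw [hfu, v.ord_unit_smul_zpow u hirr n]

end Normalisation

section Dedekind

variable {R : Type*} [CommRing R] [IsDedekindDomain R] [Algebra R F] [IsFractionRing R F]
  [Algebra K R] [IsScalarTower K R F]

/-- `ord` at the place attached to a height-one prime is the additive adic valuation. -/
theorem Place.ord_ofHeightOneSpectrum (w : HeightOneSpectrum R) (f : F) :
    (Place.ofHeightOneSpectrum (K := K) (F := F) w).ord f = - log (w.valuation F f) := by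
  obtain ⟨π, hπ⟩ := w.valuation_exists_uniformizer F
  exact Place.ord_eq_neg_log_of_valuationSubring_eq _ (w.valuation F) rfl hπ f

theorem Place.ofHeightOneSpectrum_injective :
    Function.Injective (Place.ofHeightOneSpectrum (K := K) (F := F) (R := R)) := by
  intro w₁ w₂ h
  have h' : (w₁.valuation F).valuationSubring = (w₂.valuation F).valuationSubring :=
    congrArg Place.toValuationSubring h
  exact HeightOneSpectrum.eq_of_valuation_isEquiv_valuation
    ((Valuation.isEquiv_iff_valuationSubring _ _).mpr h')

/-- Every place of `F/K` whose valuation ring contains the Dedekind model `R` comes from a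
height-one prime of `R`. -/
theorem Place.exists_ofHeightOneSpectrum_eq (v : Place K F)
    (hR : ∀ r : R, algebraMap R F r ∈ v.toValuationSubring) :
    ∃ w : HeightOneSpectrum R, Place.ofHeightOneSpectrum (K := K) (F := F) w = v := by
  let φ : R →+* v.toValuationSubring :=
    (algebraMap R F).codRestrict v.toValuationSubring.toSubring hR
  have hφ : ∀ r, ((φ r : v.toValuationSubring) : F) = algebraMap R F r := fun _ => rfl
  let P : Ideal R := (IsLocalRing.maximalIdeal v.toValuationSubring).comap φ
  have hPprime : P.IsPrime := Ideal.comap_isPrime φ _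
  have hunit : ∀ r : R, r ∉ P → (algebraMap R F r)⁻¹ ∈ v.toValuationSubring := by
    intro r hr
    have hu : IsUnit (φ r) := by
      by_contra hnu
      exact hr ((IsLocalRing.mem_maximalIdeal _).mpr hnu)
    obtain ⟨u, hu'⟩ := hu
    have h2 : (((u⁻¹ : v.toValuationSubringˣ) : v.toValuationSubring) : F) * algebraMap R F r = 1 := by
      have h1 : ((u⁻¹ : v.toValuationSubringˣ) : v.toValuationSubring) * φ r = 1 := by
        rw [← hu']; exact u.inv_mul
      exact congrArg Subtype.val h1
    rw [← eq_inv_of_mul_eq_one_left h2]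
    exact Subtype.mem _
  have hPbot : P ≠ ⊥ := by
    intro hbot
    apply v.ne_top'
    refine SetLike.ext fun x => ⟨fun _ => ValuationSubring.mem_top x, fun _ => ?_⟩
    obtain ⟨a, b, hb, rfl⟩ := IsFractionRing.div_surjective (A := R) x
    have hb0 : b ≠ 0 := nonZeroDivisors.ne_zero hb
    have hbP : b ∉ P := by
      rw [hbot, Ideal.mem_bot]
      exact hb0
    rw [div_eq_mul_inv]
    exact mul_mem (hR a) (hunit b hbP)
  let w : HeightOneSpectrum R := ⟨P, hPprime, hPbot⟩
  refine ⟨w, ?_⟩
  apply Place.ext
  show (w.valuation F).valuationSubring = v.toValuationSubring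
  have hle : (w.valuation F).valuationSubring ≤ v.toValuationSubring := by
    intro x hx
    rw [Valuation.mem_valuationSubring_iff] at hx
    obtain ⟨n, d, hnd⟩ := w.exists_primeCompl_mul_eq_of_integer x hx
    have hd : (d : R) ∉ P := d.2
    have hd0 : algebraMap R F (d : R) ≠ 0 := by
      intro h0
      apply hd
      have : (d : R) = 0 := (IsFractionRing.injective R F) (by rw [h0, map_zero])
      rw [this]
      exact P.zero_mem
    have hx' : x = algebraMap R F n * (algebraMap R F (d : R))⁻¹ := by
      rw [← hnd, mul_inv_cancel_right₀ hd0]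
    rw [hx']
    exact mul_mem (hR n) (hunit d hd)
  rw [← HeightOneSpectrum.valuationSubringAtPrime_eq_valuationSubring] at hle ⊢
  exact ValuationSubring.eq_of_le_of_ne_top _ hle v.ne_top'

/-- The prime of `R` attached to a place containing `R` is unique. -/
theorem Place.existsUnique_ofHeightOneSpectrum_eq (v : Place K F)
    (hR : ∀ r : R, algebraMap R F r ∈ v.toValuationSubring) :
    ∃! w : HeightOneSpectrum R, Place.ofHeightOneSpectrum (K := K) (F := F) w = v := by
  obtain ⟨w, hw⟩ := Place.exists_ofHeightOneSpectrum_eq v hR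
  exact ⟨w, hw, fun w' hw' => Place.ofHeightOneSpectrum_injective (K := K) (hw'.trans hw.symm)⟩

/-- The valuation ring of `ofHeightOneSpectrum w` contains `R`. -/
theorem Place.algebraMap_mem_ofHeightOneSpectrum (w : HeightOneSpectrum R) (r : R) :
    algebraMap R F r ∈ (Place.ofHeightOneSpectrum (K := K) (F := F) w).toValuationSubring := by
  show algebraMap R F r ∈ (w.valuation F).valuationSubring
  rw [Valuation.mem_valuationSubring_iff]
  exact w.valuation_le_one r

end Dedekind

end Fermat.Agent.X0
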