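import Mathlib
import Fermat.Agent.X0.Defs
import Fermat.Agent.X0.Alg.Dict
import Fermat.Agent.X0.Alg.PlaceBasic

/-!
# X-ALG (A2, core): places over `x = a` in a coordinate context

Coordinate context (as in `Mathlib.NumberTheory.FunctionField`): `F` is a finite separable
extension of `RatFunc K`, compatible `K[X]`-algebra structure; `x := algebraMap K[X] F X`.
`𝒪 := FunctionField.ringOfIntegers K F` is a Dedekind domain with fraction field `F`.
-/

set_option autoImplicit false

open AlgebraicCurve IsDedekindDomain WithZero Polynomial FunctionField IntermediateField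

namespace Fermat.Agent.X0

variable {K F : Type*} [Field K] [Field F] [Algebra K F]
  [Algebra K[X] F] [Algebra (RatFunc K) F] [IsScalarTower K[X] (RatFunc K) F]
  [IsScalarTower K K[X] F] [FunctionField K F] [Algebra.IsSeparable (RatFunc K) F]

instance alg_isTorsionFree_ringOfIntegers : Module.IsTorsionFree K[X] (ringOfIntegers K F) :=
  Module.isTorsionFree_iff_algebraMap_injective.mpr (ringOfIntegers.algebraMap_injective K F)

/-- The coordinate function. -/
noncomputable abbrev coordX (K F : Type*) [Field K] [Field F] [Algebra K[X] F] : F :=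
  algebraMap K[X] F X

theorem algebraMap_polynomial_C (a : K) :
    algebraMap K[X] F (C a) = algebraMap K F a := by
  rw [IsScalarTower.algebraMap_apply K K[X] F, Polynomial.algebraMap_apply]
  simp

theorem algebraMap_polynomial_eq_aeval (p : K[X]) :
    algebraMap K[X] F p = aeval (coordX K F) p := by
  have h : IsScalarTower.toAlgHom K K[X] F = aeval (coordX K F) :=
    Polynomial.algHom_ext (by simp [coordX])
  exact congrArg (fun f : K[X] →ₐ[K] F => f p) h

theorem algebraMap_X_sub_C (a : K) :
    algebraMap K[X] F (X - C a) = coordX K F - algebraMap K F a := by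
  rw [map_sub, algebraMap_polynomial_C]

/-- If the coordinate lies in the valuation ring of `v` then so does the image of `K[X]`. -/
theorem Place.algebraMap_polynomial_mem (v : Place K F)
    (hx : coordX K F ∈ v.toValuationSubring) (p : K[X]) :
    algebraMap K[X] F p ∈ v.toValuationSubring := by
  rw [algebraMap_polynomial_eq_aeval, aeval_eq_sum_range]
  refine sum_mem fun i _ => ?_
  rw [Algebra.smul_def]
  exact mul_mem (v.algebraMap_mem' _) (pow_mem hx i)

/-- If the coordinate lies in the valuation ring of `v` then so does the ring of integers. -/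
theorem Place.ringOfIntegers_mem (v : Place K F)
    (hx : coordX K F ∈ v.toValuationSubring) (b : ringOfIntegers K F) :
    algebraMap (ringOfIntegers K F) F b ∈ v.toValuationSubring := by
  let φ : K[X] →+* v.toValuationSubring :=
    (algebraMap K[X] F).codRestrict v.toValuationSubring.toSubring
      (Place.algebraMap_polynomial_mem v hx)
  have hb : IsIntegral K[X] (b : F) := b.2
  have hint : IsIntegral v.toValuationSubring ((RingHom.id F) (b : F)) :=
    IsIntegral.map_of_comp_eq φ (RingHom.id F) (RingHom.ext fun p => rfl) hb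
  obtain ⟨y, hy⟩ := (IsIntegrallyClosed.isIntegral_iff (R := v.toValuationSubring) (K := F)).mp hint
  show (b : F) ∈ v.toValuationSubring
  rw [RingHom.id_apply] at hy
  rw [← hy]
  exact y.2

/-- Places whose valuation ring contains the coordinate come from primes of `𝒪`. -/
theorem Place.exists_prime_of_coordX_mem (v : Place K F)
    (hx : coordX K F ∈ v.toValuationSubring) :
    ∃ w : HeightOneSpectrum (ringOfIntegers K F),
      Place.ofHeightOneSpectrum (K := K) (F := F) w = v :=
  Place.exists_ofHeightOneSpectrum_eq v (Place.ringOfIntegers_mem v hx)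

theorem Place.coordX_mem_ofHeightOneSpectrum (w : HeightOneSpectrum (ringOfIntegers K F)) :
    coordX K F ∈ (Place.ofHeightOneSpectrum (K := K) (F := F) w).toValuationSubring := by
  have := Place.algebraMap_mem_ofHeightOneSpectrum (K := K) (F := F) w
    (algebraMap K[X] (ringOfIntegers K F) X)
  rwa [← IsScalarTower.algebraMap_apply] at this

end Fermat.Agent.X0

namespace Fermat.Agent.X0

variable {K F : Type*} [Field K] [Field F] [Algebra K F]
  [Algebra K[X] F] [Algebra (RatFunc K) F] [IsScalarTower K[X] (RatFunc K) F]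
  [IsScalarTower K K[X] F] [FunctionField K F] [Algebra.IsSeparable (RatFunc K) F]

/-- The prime `(X - a)` of `K[X]`. -/
noncomputable def primeAt (a : K) : HeightOneSpectrum K[X] where
  asIdeal := Ideal.span {X - C a}
  isPrime := (Ideal.span_singleton_prime (X_sub_C_ne_zero a)).mpr (prime_X_sub_C a)
  ne_bot := by
    rw [Ne, Ideal.span_singleton_eq_bot]
    exact X_sub_C_ne_zero a

theorem primeAt_asIdeal (a : K) : (primeAt a).asIdeal = Ideal.span {X - C a} := rfl

theorem primeAt_intValuation (a : K) : (primeAt a).intValuation (X - C a) = exp (-1 : ℤ) :=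
  (primeAt a).intValuation_singleton (X_sub_C_ne_zero a) rfl

/-- `ord` of the function `x - a` at the place of a prime `w` of the ring of integers,
in terms of the integer valuation. -/
theorem Place.ord_ofHeightOneSpectrum_algebraMap (w : HeightOneSpectrum (ringOfIntegers K F))
    (p : K[X]) :
    (Place.ofHeightOneSpectrum (K := K) (F := F) w).ord (algebraMap K[X] F p) =
      - log (w.intValuation (algebraMap K[X] (ringOfIntegers K F) p)) := by
  rw [Place.ord_ofHeightOneSpectrum, IsScalarTower.algebraMap_apply K[X] (ringOfIntegers K F) F,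
    HeightOneSpectrum.valuation_of_algebraMap]

theorem liesOver_primeAt_iff (w : HeightOneSpectrum (ringOfIntegers K F)) (a : K) :
    w.asIdeal.LiesOver (primeAt a).asIdeal ↔
      algebraMap K[X] (ringOfIntegers K F) (X - C a) ∈ w.asIdeal := by
  constructor
  · intro h
    rw [← Ideal.mem_of_liesOver w.asIdeal (primeAt a).asIdeal, primeAt_asIdeal]
    exact Ideal.mem_span_singleton_self _
  · intro h
    refine ⟨?_⟩
    have hle : (primeAt a).asIdeal ≤ w.asIdeal.under K[X] := by
      rw [primeAt_asIdeal, Ideal.span_le, Set.singleton_subset_iff]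
      exact h
    have hmax : (primeAt a).asIdeal.IsMaximal := (primeAt a).isMaximal
    have hne : w.asIdeal.under K[X] ≠ ⊤ := by
      have : (w.asIdeal.under K[X]).IsPrime := Ideal.IsPrime.under K[X] w.asIdeal
      exact this.ne_top
    exact hmax.eq_of_le hne hle

theorem Place.ord_pos_iff_liesOver (w : HeightOneSpectrum (ringOfIntegers K F)) (a : K) :
    0 < (Place.ofHeightOneSpectrum (K := K) (F := F) w).ord (coordX K F - algebraMap K F a) ↔
      w.asIdeal.LiesOver (primeAt a).asIdeal := by
  rw [liesOver_primeAt_iff, ← algebraMap_X_sub_C, Place.ord_ofHeightOneSpectrum_algebraMap,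
    ← HeightOneSpectrum.intValuation_lt_one_iff_mem]
  set r := algebraMap K[X] (ringOfIntegers K F) (X - C a) with hr
  have hr0 : r ≠ 0 := by
    rw [hr, Ne, map_eq_zero_iff _ (ringOfIntegers.algebraMap_injective K F)]
    exact X_sub_C_ne_zero a
  have hv0 : w.intValuation r ≠ 0 := w.intValuation_ne_zero r hr0
  rw [neg_pos, ← exp_lt_exp, exp_log hv0, exp_zero]

/-- At a prime over `(X - a)` the order of `x - a` is the ramification index. -/
theorem Place.ord_eq_ramificationIdx (w : HeightOneSpectrum (ringOfIntegers K F)) (a : K)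
    [w.asIdeal.LiesOver (primeAt a).asIdeal] :
    (Place.ofHeightOneSpectrum (K := K) (F := F) w).ord (coordX K F - algebraMap K F a) =
      ((primeAt a).asIdeal.ramificationIdx' w.asIdeal : ℤ) := by
  rw [← algebraMap_X_sub_C, Place.ord_ofHeightOneSpectrum_algebraMap,
    ← HeightOneSpectrum.intValuation_liesOver (primeAt a) w, primeAt_intValuation, ← exp_nsmul,
    log_exp]
  simp

end Fermat.Agent.X0

namespace Fermat.Agent.X0

variable {K F : Type*} [Field K] [Field F] [Algebra K F]
  [Algebra K[X] F] [Algebra (RatFunc K) F] [IsScalarTower K[X] (RatFunc K) F]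
  [IsScalarTower K K[X] F] [FunctionField K F] [Algebra.IsSeparable (RatFunc K) F]

theorem inertiaDeg_primeAt_eq_one [IsAlgClosed K] (w : HeightOneSpectrum (ringOfIntegers K F))
    (a : K) [w.asIdeal.LiesOver (primeAt a).asIdeal] :
    (primeAt a).asIdeal.inertiaDeg' w.asIdeal = 1 := by
  rw [Ideal.inertiaDeg'_algebraMap]
  have hmax : (primeAt a).asIdeal.IsMaximal := (primeAt a).isMaximal
  have hwmax : w.asIdeal.IsMaximal := w.isMaximal
  let _ : Field (K[X] ⧸ (primeAt a).asIdeal) := Ideal.Quotient.field _
  let _ : Field (ringOfIntegers K F ⧸ w.asIdeal) := Ideal.Quotient.field _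
  have hac : IsAlgClosed (K[X] ⧸ (primeAt a).asIdeal) :=
    IsAlgClosed.of_ringEquiv K _ (quotientSpanXSubCAlgEquiv a).symm.toRingEquiv
  have hbij : Function.Bijective (algebraMap (K[X] ⧸ (primeAt a).asIdeal)
      (ringOfIntegers K F ⧸ w.asIdeal)) :=
    IsAlgClosed.algebraMap_bijective_of_isIntegral
  rw [← LinearEquiv.finrank_eq (LinearEquiv.ofBijective (Algebra.linearMap _ _) hbij),
    Module.finrank_self]

theorem Place.coordX_mem_of_mem_placesOver {a : K} {v : Place K F}
    (hv : v ∈ placesOver (coordX K F) a) : coordX K F ∈ v.toValuationSubring := by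
  have h1 : coordX K F - algebraMap K F a ∈ v.toValuationSubring :=
    Place.mem_of_ord_nonneg v (le_of_lt hv)
  have h2 := add_mem h1 (v.algebraMap_mem' a)
  rwa [sub_add_cancel] at h2

/-- The prime of the ring of integers attached to an element of `primesOverFinset`. -/
noncomputable def hosOfMem (a : K) (P : Ideal (ringOfIntegers K F))
    (hP : P ∈ IsDedekindDomain.primesOverFinset (primeAt a).asIdeal (ringOfIntegers K F)) :
    HeightOneSpectrum (ringOfIntegers K F) :=
  have h := (IsDedekindDomain.mem_primesOverFinset_iff (primeAt a).ne_bot (ringOfIntegers K F)).mp hP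
  ⟨P, h.1, haveI := h.2; Ideal.ne_bot_of_liesOver_of_ne_bot (primeAt a).ne_bot P⟩

theorem hosOfMem_liesOver (a : K) (P : Ideal (ringOfIntegers K F))
    (hP : P ∈ IsDedekindDomain.primesOverFinset (primeAt a).asIdeal (ringOfIntegers K F)) :
    (hosOfMem a P hP).asIdeal.LiesOver (primeAt a).asIdeal :=
  ((IsDedekindDomain.mem_primesOverFinset_iff (primeAt a).ne_bot (ringOfIntegers K F)).mp hP).2

theorem placesOver_eq_range (a : K) :
    placesOver (coordX K F) a = Set.range fun P :
      {P // P ∈ IsDedekindDomain.primesOverFinset (primeAt a).asIdeal (ringOfIntegers K F)} =>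
        Place.ofHeightOneSpectrum (K := K) (F := F) (hosOfMem a P.1 P.2) := by
  ext v
  constructor
  · intro hv
    obtain ⟨w, rfl⟩ := Place.exists_prime_of_coordX_mem v (Place.coordX_mem_of_mem_placesOver hv)
    have hlo : w.asIdeal.LiesOver (primeAt a).asIdeal := (Place.ord_pos_iff_liesOver w a).mp hv
    have hmem : w.asIdeal ∈ IsDedekindDomain.primesOverFinset (primeAt a).asIdeal (ringOfIntegers K F) :=
      (IsDedekindDomain.mem_primesOverFinset_iff (primeAt a).ne_bot (ringOfIntegers K F)).mpr ⟨w.isPrime, hlo⟩
    exact ⟨⟨w.asIdeal, hmem⟩, rfl⟩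
  · rintro ⟨⟨P, hP⟩, rfl⟩
    exact (Place.ord_pos_iff_liesOver _ a).mpr (hosOfMem_liesOver a P hP)

theorem finite_placesOver_core (a : K) : (placesOver (coordX K F) a).Finite := by
  rw [placesOver_eq_range]
  exact Set.finite_range _

theorem sum_ord_placesOver_core [IsAlgClosed K] (a : K) :
    ∑ v ∈ (finite_placesOver_core (K := K) (F := F) a).toFinset,
      v.ord (coordX K F - algebraMap K F a) = (Module.finrank (RatFunc K) F : ℤ) := by
  classical
  have hmax : (primeAt a).asIdeal.IsMaximal := (primeAt a).isMaximal
  rw [← Ideal.sum_ramification_inertia (ringOfIntegers K F) (RatFunc K) F (primeAt a).ne_bot]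
  set S := IsDedekindDomain.primesOverFinset (primeAt a).asIdeal (ringOfIntegers K F) with hS
  let g : {P // P ∈ S} → Place K F := fun P =>
    Place.ofHeightOneSpectrum (K := K) (F := F) (hosOfMem a P.1 P.2)
  have hginj : Function.Injective g := by
    intro P Q h
    have := Place.ofHeightOneSpectrum_injective (K := K) h
    exact Subtype.ext (congrArg HeightOneSpectrum.asIdeal this)
  have himage : (finite_placesOver_core (K := K) (F := F) a).toFinset = S.attach.image g := by
    ext v
    rw [Set.Finite.mem_toFinset, placesOver_eq_range, Finset.mem_image]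
    constructor
    · rintro ⟨P, rfl⟩
      exact ⟨P, Finset.mem_attach _ _, rfl⟩
    · rintro ⟨P, -, rfl⟩
      exact ⟨P, rfl⟩
  rw [himage, Finset.sum_image (fun P _ Q _ h => hginj h), Nat.cast_sum, ← Finset.sum_attach S]
  refine Finset.sum_congr rfl fun P _ => ?_
  haveI := hosOfMem_liesOver a P.1 P.2
  have h1 := Place.ord_eq_ramificationIdx (K := K) (F := F) (hosOfMem a P.1 P.2) a
  have h2 := inertiaDeg_primeAt_eq_one (K := K) (F := F) (hosOfMem a P.1 P.2) a
  show (Place.ofHeightOneSpectrum (K := K) (F := F) (hosOfMem a P.1 P.2)).ord _ = _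
  rw [h1]
  have h3 : (hosOfMem a P.1 P.2).asIdeal = P.1 := rfl
  rw [h3] at h2 ⊢
  rw [h2, mul_one]

end Fermat.Agent.X0
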