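import Mathlib
import Fermat.Agent.X0.Defs
import Fermat.Agent.X0.Alg.DegCore

/-!
# X-ALG: the coordinate package of a separating variable

For `x : F` transcendental over `K` we put on `F` the `K[X]`-algebra structure `X ↦ x`
(`algPoly K x`) and the `RatFunc K`-algebra structure (`algRat hx`), and prove all the instance
facts needed to use `Fermat.Agent.X0.Alg.DegCore` (whose theorems are stated in a "coordinate
context" à la `Mathlib.NumberTheory.FunctionField`).  Use as

```
  letI := algPoly K x
  letI := algRat hx.transcendental
  haveI := isScalarTower_poly_rat hx.transcendental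
  haveI := isScalarTower_base_poly (K := K) x
  haveI := hx.finite
  haveI := functionField_of_finite hx.transcendental
  haveI := isSeparable_ratFunc hx.transcendental
```
-/

set_option autoImplicit false

open AlgebraicCurve IsDedekindDomain WithZero Polynomial FunctionField IntermediateField

namespace Fermat.Agent.X0

variable {K F : Type*} [Field K] [Field F] [Algebra K F]

/-- The `K[X]`-algebra structure on `F` attached to `x`. -/
@[reducible] noncomputable def algPoly (K : Type*) {F : Type*} [Field K] [Field F] [Algebra K F]
    (x : F) : Algebra K[X] F := (aeval x).toAlgebra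

/-- The ring hom `RatFunc K → F` attached to a transcendental `x`. -/
noncomputable def ratFuncHom {x : F} (hx : Transcendental K x) : RatFunc K →ₐ[K] F :=
  (K⟮x⟯.val).comp (RatFunc.algEquivOfTranscendental x hx).toAlgHom

/-- The `RatFunc K`-algebra structure on `F` attached to a transcendental `x`. -/
@[reducible] noncomputable def algRat {x : F} (hx : Transcendental K x) : Algebra (RatFunc K) F :=
  (ratFuncHom hx).toRingHom.toAlgebra

theorem ratFuncHom_algebraMap {x : F} (hx : Transcendental K x) (p : K[X]) :
    ratFuncHom hx (algebraMap K[X] (RatFunc K) p) = aeval x p := by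
  have h1 : ratFuncHom hx (algebraMap K[X] (RatFunc K) p) =
      K⟮x⟯.val (RatFunc.algEquivOfTranscendental x hx (algebraMap K[X] (RatFunc K) p)) := rfl
  rw [h1, RatFunc.algEquivOfTranscendental_algebraMap, ← Polynomial.aeval_algHom_apply]
  simp

theorem isScalarTower_poly_rat {x : F} (hx : Transcendental K x) :
    letI := algPoly K x
    letI := algRat hx
    IsScalarTower K[X] (RatFunc K) F := by
  letI := algPoly K x
  letI := algRat hx
  refine IsScalarTower.of_algebraMap_eq fun p => ?_
  exact (ratFuncHom_algebraMap hx p).symm

theorem isScalarTower_base_poly (x : F) :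
    letI := algPoly K x
    IsScalarTower K K[X] F := by
  letI := algPoly K x
  refine IsScalarTower.of_algebraMap_eq fun a => ?_
  show algebraMap K F a = aeval x (algebraMap K K[X] a)
  rw [Polynomial.algebraMap_apply, Algebra.algebraMap_self_apply, aeval_C]

theorem coordX_eq (x : F) :
    letI := algPoly K x
    coordX K F = x := by
  show aeval x (X : K[X]) = x
  exact aeval_X x

/-- A `K⟮x⟯`-basis of `F` as a `RatFunc K`-basis. -/
noncomputable def ratFuncBasis {x : F} (hx : Transcendental K x) {ι : Type*}
    (b : Module.Basis ι K⟮x⟯ F) :
    letI := algRat hx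
    Module.Basis ι (RatFunc K) F :=
  letI := algRat hx
  b.mapCoeffs (RatFunc.algEquivOfTranscendental x hx).symm.toRingEquiv (by
    intro c y
    rw [Algebra.smul_def, Algebra.smul_def]
    congr 1
    show K⟮x⟯.val ((RatFunc.algEquivOfTranscendental x hx)
      ((RatFunc.algEquivOfTranscendental x hx).symm c)) = algebraMap K⟮x⟯ F c
    rw [AlgEquiv.apply_symm_apply]
    rfl)

theorem functionField_of_finite {x : F} (hx : Transcendental K x)
    [hfin : FiniteDimensional K⟮x⟯ F] :
    letI := algRat hx
    FunctionField K F := by
  letI := algRat hx
  exact Module.Finite.of_basis (ratFuncBasis hx (Module.finBasis K⟮x⟯ F))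

theorem finrank_ratFunc_eq {x : F} (hx : Transcendental K x)
    [hfin : FiniteDimensional K⟮x⟯ F] :
    letI := algRat hx
    Module.finrank (RatFunc K) F = Module.finrank K⟮x⟯ F := by
  letI := algRat hx
  rw [Module.finrank_eq_card_basis (ratFuncBasis hx (Module.finBasis K⟮x⟯ F))]
  simp

theorem isSeparable_ratFunc [CharZero K] {x : F} (hx : Transcendental K x)
    [hfin : FiniteDimensional K⟮x⟯ F] :
    letI := algRat hx
    Algebra.IsSeparable (RatFunc K) F := by
  letI := algRat hx
  haveI := functionField_of_finite hx
  haveI : CharZero (RatFunc K) :=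
    charZero_of_injective_algebraMap (algebraMap K (RatFunc K)).injective
  infer_instance

section Core

variable [Algebra K[X] F] [Algebra (RatFunc K) F] [IsScalarTower K[X] (RatFunc K) F]
  [IsScalarTower K K[X] F] [FunctionField K F] [Algebra.IsSeparable (RatFunc K) F]

/-- The Dedekind model in a coordinate context: the integral closure of `K[X]` in `F`, as a
`K`-subalgebra of `F`. -/
theorem exists_dedekind_model_coord :
    ∃ (R : Subalgebra K F) (_ : IsDedekindDomain R) (_ : IsFractionRing R F),
      Algebra.FiniteType K R ∧
      ∀ v : Place K F, coordX K F ∈ v.toValuationSubring →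
        ∀ r : R, (r : F) ∈ v.toValuationSubring := by
  refine ⟨(ringOfIntegers K F).restrictScalars K,
    inferInstanceAs (IsDedekindDomain (ringOfIntegers K F)),
    inferInstanceAs (IsFractionRing (ringOfIntegers K F) F), ?_, ?_⟩
  · have h1 : Algebra.FiniteType K[X] (ringOfIntegers K F) := inferInstance
    have h2 : Algebra.FiniteType K K[X] := inferInstance
    have h3 : Algebra.FiniteType K (ringOfIntegers K F) := Algebra.FiniteType.trans h2 h1
    exact h3
  · intro v hv r
    exact Place.ringOfIntegers_mem v hv ⟨r.1, r.2⟩

end Core

end Fermat.Agent.X0
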