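import Mathlib
import Fermat.Agent.X0.Defs

/-!
# X-ALG: Möbius changes of a separating variable

Being a separating variable of degree `n` only depends on the subfield `K(x)`; hence `x⁻¹` and
`x - a` (`a : K`) are separating variables of the same degree as `x`.
-/

set_option autoImplicit false

namespace Fermat.Agent.X0

open AlgebraicCurve IntermediateField

variable {K F : Type*} [Field K] [Field F] [Algebra K F]

/-- Being a separating variable of degree `n` only depends on the field `K(x)`. -/
theorem isSepVar_of_adjoin_eq {x y : F} {n : ℕ} (hx : IsSepVar K x n) (h : K⟮y⟯ = K⟮x⟯)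
    (hy : Transcendental K y) : IsSepVar K y n := by
  obtain ⟨_, h2, h3⟩ := hx
  refine ⟨hy, ?_, ?_⟩
  · rw [h]; exact h2
  · rw [h]; exact h3

theorem adjoin_simple_inv (x : F) : K⟮x⁻¹⟯ = K⟮x⟯ := by
  apply le_antisymm
  · rw [adjoin_simple_le_iff]
    exact inv_mem (mem_adjoin_simple_self K x)
  · rw [adjoin_simple_le_iff]
    have := inv_mem (mem_adjoin_simple_self K x⁻¹)
    rwa [inv_inv] at this

theorem adjoin_simple_sub_algebraMap (x : F) (a : K) : K⟮x - algebraMap K F a⟯ = K⟮x⟯ := by
  apply le_antisymm
  · rw [adjoin_simple_le_iff]
    exact sub_mem (mem_adjoin_simple_self K x) (IntermediateField.algebraMap_mem _ a)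
  · rw [adjoin_simple_le_iff]
    have := add_mem (mem_adjoin_simple_self K (x - algebraMap K F a))
      (IntermediateField.algebraMap_mem K⟮x - algebraMap K F a⟯ a)
    rwa [sub_add_cancel] at this

/-- `1/x` is a separating variable of the same degree as `x`. -/
theorem isSepVar_inv {x : F} {n : ℕ} (hx : IsSepVar K x n) : IsSepVar K x⁻¹ n := by
  refine isSepVar_of_adjoin_eq hx (adjoin_simple_inv x) ?_
  intro halg
  exact hx.transcendental (by simpa using halg.inv)

/-- `x - a` is a separating variable of the same degree as `x`. -/
theorem isSepVar_sub_const {x : F} {n : ℕ} (hx : IsSepVar K x n) (a : K) :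
    IsSepVar K (x - algebraMap K F a) n := by
  refine isSepVar_of_adjoin_eq hx (adjoin_simple_sub_algebraMap x a) ?_
  intro halg
  apply hx.transcendental
  have := halg.add (isAlgebraic_algebraMap (R := K) (A := F) a)
  rwa [sub_add_cancel] at this

/-- The places over the value `a` of `x` are the zeros of `x - a`. -/
theorem placesOver_eq_placesOver_sub_zero (x : F) (a : K) :
    placesOver x a = placesOver (x - algebraMap K F a) (0 : K) := by
  ext v
  rw [mem_placesOver, mem_placesOver, map_zero, sub_zero]

/-- The poles of `x` are the zeros of `1/x`. -/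
theorem placesOverInfty_eq_placesOver_inv_zero (x : F) :
    placesOverInfty K x = placesOver x⁻¹ (0 : K) := by
  ext v
  rw [mem_placesOver, mem_placesOverInfty, map_zero, sub_zero, Place.ord_inv]
  omega

end Fermat.Agent.X0
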