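import Mathlib
import Fermat.Prelude.Def_AlgebraicCurve_CanonicalDivisor
import Fermat.Agent.X0.Alg.Dict
import Fermat.Agent.X0.Alg.PlaceBasic

/-!
# X-ALG (A2b): places containing a Dedekind model of finite type

`R` a Dedekind domain with fraction field `F`, a `K`-algebra of finite type, `v` a place of `F/K`
whose valuation ring contains `R`. Then

* (FT) `Place.exists_finset_adjoin_of_model` : `O_v` is essentially of finite type over `K`;
* (RES) `Place.exists_adicValuation_sub_lt_one_of_model` : if `K` is algebraically closed, the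
  residue field of `v` is `K`.
-/

set_option autoImplicit false

open AlgebraicCurve IsDedekindDomain WithZero

namespace Fermat.Agent.X0

variable {K F : Type*} [Field K] [Field F] [Algebra K F]

section Model

variable {R : Type*} [CommRing R] [IsDedekindDomain R] [Algebra R F] [IsFractionRing R F]
  [Algebra K R] [IsScalarTower K R F]

/-- The adic valuation of the place attached to a height-one prime `w` is `w.valuation`. -/
theorem Place.adicValuation_ofHeightOneSpectrum (w : HeightOneSpectrum R) (f : F) :
    (Place.ofHeightOneSpectrum (K := K) (F := F) w).adicValuation f = w.valuation F f := by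
  rcases eq_or_ne f 0 with rfl | hf
  · simp
  have hwf : w.valuation F f ≠ 0 := (Valuation.ne_zero_iff _).mpr hf
  rw [Place.adicValuation_eq_exp_neg_ord _ hf, Place.ord_ofHeightOneSpectrum, neg_neg,
    exp_log hwf]

/-- (FT) for a place containing a Dedekind model of finite type. -/
theorem Place.exists_finset_adjoin_of_model [Algebra.FiniteType K R] (v : Place K F)
    (hR : ∀ r : R, algebraMap R F r ∈ v.toValuationSubring) :
    ∃ T : Finset F, (∀ τ ∈ T, τ ∈ v.toValuationSubring) ∧ ∀ u ∈ v.toValuationSubring,
      ∃ r s : F, r ∈ Algebra.adjoin K (T : Set F) ∧ s ∈ Algebra.adjoin K (T : Set F) ∧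
        v.adicValuation s = 1 ∧ u = r / s := by
  classical
  obtain ⟨S, hS⟩ := (Algebra.FiniteType.out : (⊤ : Subalgebra K R).FG)
  obtain ⟨w, rfl⟩ := Place.exists_ofHeightOneSpectrum_eq v hR
  refine ⟨S.image (algebraMap R F), ?_, ?_⟩
  · intro τ hτ
    obtain ⟨r, -, rfl⟩ := Finset.mem_image.mp hτ
    exact hR r
  · have hmem : ∀ r : R, algebraMap R F r ∈
        Algebra.adjoin K ((S.image (algebraMap R F) : Finset F) : Set F) := by
      intro r
      have h1 : r ∈ Algebra.adjoin K (S : Set R) := by rw [hS]; trivial
      have h2 := (IsScalarTower.toAlgHom K R F).map_adjoin (S : Set R)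
      have h3 : (IsScalarTower.toAlgHom K R F) r ∈
          Subalgebra.map (IsScalarTower.toAlgHom K R F) (Algebra.adjoin K (S : Set R)) :=
        Subalgebra.mem_map.mpr ⟨r, h1, rfl⟩
      rw [h2] at h3
      simpa using h3
    intro u hu
    have hu' : w.valuation F u ≤ 1 := by
      rwa [Place.ofHeightOneSpectrum_toValuationSubring,
        Valuation.mem_valuationSubring_iff] at hu
    obtain ⟨n, d, hnd⟩ := w.exists_primeCompl_mul_eq_of_integer u hu'
    have hd : (d : R) ∉ w.asIdeal := d.2
    have hd0 : algebraMap R F (d : R) ≠ 0 := by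
      intro h0
      apply hd
      have : (d : R) = 0 := (IsFractionRing.injective R F) (by rw [h0, map_zero])
      rw [this]
      exact w.asIdeal.zero_mem
    refine ⟨algebraMap R F n, algebraMap R F (d : R), hmem n, hmem d, ?_, ?_⟩
    · rw [Place.adicValuation_ofHeightOneSpectrum, HeightOneSpectrum.valuation_of_algebraMap,
        HeightOneSpectrum.intValuation_eq_one_iff]
      exact hd
    · rw [← hnd, mul_div_assoc, div_self hd0, mul_one]

/-- The residue field of a height-one prime of a Dedekind `K`-algebra of finite type over an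
algebraically closed field `K` is `K`. -/
theorem exists_sub_algebraMap_mem_of_finiteType [IsAlgClosed K] [Algebra.FiniteType K R]
    (w : HeightOneSpectrum R) (r : R) : ∃ c : K, r - algebraMap K R c ∈ w.asIdeal := by
  have hmax : w.asIdeal.IsMaximal := w.isMaximal
  let _ : Field (R ⧸ w.asIdeal) := Ideal.Quotient.field _
  have hfin : Module.Finite K (R ⧸ w.asIdeal) :=
    finite_of_finite_type_of_isJacobsonRing K (R ⧸ w.asIdeal)
  have hint : Algebra.IsIntegral K (R ⧸ w.asIdeal) := inferInstance
  obtain ⟨c, hc⟩ := (IsAlgClosed.algebraMap_bijective_of_isIntegral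
    (k := K) (K := R ⧸ w.asIdeal)).2 (Ideal.Quotient.mk _ r)
  refine ⟨c, ?_⟩
  rw [← Ideal.Quotient.eq_zero_iff_mem, map_sub, ← hc, ← Ideal.Quotient.algebraMap_eq,
    ← IsScalarTower.algebraMap_apply, sub_self]

/-- (RES) for a place containing a Dedekind model of finite type, `K` algebraically closed. -/
theorem Place.exists_adicValuation_sub_lt_one_of_model [IsAlgClosed K] [Algebra.FiniteType K R]
    (v : Place K F) (hR : ∀ r : R, algebraMap R F r ∈ v.toValuationSubring) {u : F}
    (hu : u ∈ v.toValuationSubring) :
    ∃ c : K, v.adicValuation (u - algebraMap K F c) < 1 := by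
  obtain ⟨w, rfl⟩ := Place.exists_ofHeightOneSpectrum_eq v hR
  have hu' : w.valuation F u ≤ 1 := by
    rwa [Place.ofHeightOneSpectrum_toValuationSubring,
      Valuation.mem_valuationSubring_iff] at hu
  obtain ⟨n, d, hnd⟩ := w.exists_primeCompl_mul_eq_of_integer u hu'
  have hd : (d : R) ∉ w.asIdeal := d.2
  have hd0 : algebraMap R F (d : R) ≠ 0 := by
    intro h0
    apply hd
    have : (d : R) = 0 := (IsFractionRing.injective R F) (by rw [h0, map_zero])
    rw [this]
    exact w.asIdeal.zero_mem
  obtain ⟨cn, hcn⟩ := exists_sub_algebraMap_mem_of_finiteType (K := K) w n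
  obtain ⟨cd, hcd⟩ := exists_sub_algebraMap_mem_of_finiteType (K := K) w (d : R)
  have hcd0 : cd ≠ 0 := by
    rintro rfl
    rw [map_zero, sub_zero] at hcd
    exact hd hcd
  have hcdF : algebraMap K F cd ≠ 0 := by
    rw [Ne, map_eq_zero]; exact hcd0
  refine ⟨cn / cd, ?_⟩
  -- `u - cn/cd = (n * cd - cn * d) / (d * cd)`
  have hkey : u - algebraMap K F (cn / cd) =
      algebraMap R F ((n - algebraMap K R cn) * algebraMap K R cd
        - algebraMap K R cn * ((d : R) - algebraMap K R cd)) *
        (algebraMap R F (d : R) * algebraMap K F cd)⁻¹ := by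
    have hu_eq : u = algebraMap R F n / algebraMap R F (d : R) := by
      rw [← hnd, mul_div_assoc, div_self hd0, mul_one]
    rw [hu_eq, map_div₀]
    simp only [map_sub, map_mul, ← IsScalarTower.algebraMap_apply K R F]
    field_simp
    ring
  rw [hkey, Place.adicValuation_ofHeightOneSpectrum, map_mul, map_inv₀, map_mul,
    HeightOneSpectrum.valuation_of_algebraMap, HeightOneSpectrum.valuation_of_algebraMap,
    HeightOneSpectrum.intValuation_eq_one_iff.mpr hd, one_mul]
  have hcdv : w.valuation F (algebraMap K F cd) = 1 := by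
    rw [IsScalarTower.algebraMap_apply K R F, HeightOneSpectrum.valuation_of_algebraMap,
      HeightOneSpectrum.intValuation_eq_one_iff]
    intro hmem
    apply hd
    have := w.asIdeal.add_mem hcd hmem
    rwa [sub_add_cancel] at this
  rw [hcdv, inv_one, mul_one, HeightOneSpectrum.intValuation_lt_one_iff_mem]
  exact w.asIdeal.sub_mem (w.asIdeal.mul_mem_right _ hcn) (w.asIdeal.mul_mem_left _ hcd)

end Model

end Fermat.Agent.X0
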