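import Mathlib
import Fermat.Prelude.Def_AlgebraicCurve_CanonicalDivisor
import Fermat.Agent.X0.Defs
import Fermat.Agent.X0.Alg.PlaceBasic

/-!
# X-ALG (A6), abstract form: the Riemann–Hurwitz count from local and global inputs

All inputs (local orders of differentials, degree `1` places, principal divisors of degree `0`,
fundamental identity) are hypotheses here; `RiemannHurwitz.lean` plugs in the actual lemmas.
-/

set_option autoImplicit false

open AlgebraicCurve KaehlerDifferential

namespace Fermat.Agent.X0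

variable {K F : Type*} [Field K] [Field F] [Algebra K F]

theorem placesOver_disjoint_placesOverInfty (x : F) (a : K) :
    Disjoint (placesOver x a) (placesOverInfty K x) := by
  rw [Set.disjoint_left]
  intro v hv hv'
  rw [mem_placesOver] at hv
  rw [mem_placesOverInfty] at hv'
  have hx0 : x ≠ 0 := by
    rintro rfl
    simp at hv'
  rcases eq_or_ne a 0 with rfl | ha
  · rw [map_zero, sub_zero] at hv
    omega
  · have ha' : -algebraMap K F a ≠ 0 := neg_ne_zero.mpr ((map_ne_zero _).mpr ha)
    have h1 : v.ord (-algebraMap K F a) = 0 := by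
      rw [Place.ord_neg, Place.ord_algebraMap]
    have := Place.ord_add_eq_of_lt v hx0 ha' (by rw [h1]; exact hv')
    rw [← sub_eq_add_neg] at this
    omega

theorem placesOver_disjoint (x : F) {a b : K} (hab : a ≠ b) :
    Disjoint (placesOver x a) (placesOver x b) := by
  rw [Set.disjoint_left]
  intro v hv hv'
  exact hab (Place.ord_pos_unique_constant v hv hv')

/-- Abstract Riemann–Hurwitz count. -/
theorem degree_divisor_differential_of {x : F} {n : ℕ}
    (hdeg : ∀ v : Place K F, v.deg = 1)
    (hval : ∀ v : Place K F, 0 ≤ v.ord x → ∃ a : K, 0 < v.ord (x - algebraMap K F a))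
    (hloc : ∀ v : Place K F, ∀ g f : F, g ≠ 0 → v.ord f ≠ 0 →
      v.ordDifferential (g • D K F f) = v.ord g + v.ord f - 1)
    (hspan : Submodule.span F {D K F x} = ⊤)
    (hprinc : ∀ g : F, g ≠ 0 → ∃ G : Divisor K F, (∀ v, G v = v.ord g) ∧ Divisor.degree G = 0)
    (hfin : ∀ a : K, (placesOver x a).Finite) (hfinInf : (placesOverInfty K x).Finite)
    (hsum : ∀ a : K, ∑ v ∈ (hfin a).toFinset, v.ord (x - algebraMap K F a) = n)
    (hsumInf : ∑ v ∈ hfinInf.toFinset, -v.ord x = n)
    (A : Finset K) (hA : ∀ (v : Place K F) (a : K), 2 ≤ v.ord (x - algebraMap K F a) → a ∈ A)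
    (ω : Ω[F⁄K]) (hω : ω ≠ 0) (Dω : Divisor K F) (hD : ∀ v, Dω v = v.ordDifferential ω) :
    Divisor.degree Dω =
      -2 * (n : ℤ) + ∑ a ∈ A, ((n : ℤ) - (Nat.card (placesOver x a) : ℤ))
        + ((n : ℤ) - (Nat.card (placesOverInfty K x) : ℤ)) := by
  classical
  -- `ω = g • dx`
  obtain ⟨g, rfl⟩ : ∃ g : F, g • D K F x = ω := by
    have : ω ∈ Submodule.span F {D K F x} := by rw [hspan]; exact Submodule.mem_top
    exact Submodule.mem_span_singleton.mp this
  have hg : g ≠ 0 := by
    rintro rfl
    exact hω (zero_smul _ _)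
  obtain ⟨G, hG, hGdeg⟩ := hprinc g hg
  -- the "different" part
  set C : Divisor K F := Dω - G with hC
  have hDeq : Dω = G + C := by rw [hC]; abel
  have hCfin : ∀ v : Place K F, ∀ a : K, 0 < v.ord (x - algebraMap K F a) →
      C v = v.ord (x - algebraMap K F a) - 1 := by
    intro v a hva
    have h1 : D K F (x - algebraMap K F a) = D K F x := by
      rw [map_sub, Derivation.map_algebraMap, sub_zero]
    have h2 := hloc v g (x - algebraMap K F a) hg hva.ne'
    rw [h1] at h2
    rw [hC, Finsupp.sub_apply, hD v, hG v, h2]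
    ring
  have hCinf : ∀ v : Place K F, v.ord x < 0 → C v = v.ord x - 1 := by
    intro v hv
    have h2 := hloc v g x hg hv.ne
    rw [hC, Finsupp.sub_apply, hD v, hG v, h2]
    ring
  -- the support of `C`
  set S : Finset (Place K F) := (A.biUnion fun a => (hfin a).toFinset) ∪ hfinInf.toFinset with hS
  have hsupp : C.support ⊆ S := by
    intro v hv
    rw [Finsupp.mem_support_iff] at hv
    rw [hS, Finset.mem_union, Finset.mem_biUnion]
    rcases lt_or_ge (v.ord x) 0 with h | h
    · right
      rw [Set.Finite.mem_toFinset]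
      exact h
    · left
      obtain ⟨a, ha⟩ := hval v h
      have h3 := hCfin v a ha
      have h4 : 2 ≤ v.ord (x - algebraMap K F a) := by
        by_contra hlt
        apply hv
        rw [h3]
        omega
      exact ⟨a, hA v a h4, by rw [Set.Finite.mem_toFinset]; exact ha⟩
  have hdegC : Divisor.degree C = ∑ v ∈ S, C v := by
    have h1 : Divisor.degree C = C.sum fun v m => m * (v.deg : ℤ) := by
      simp [Divisor.degree, Finsupp.liftAddHom_apply]
    rw [h1, Finsupp.sum_of_support_subset C hsupp _ (fun v _ => by simp)]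
    refine Finset.sum_congr rfl fun v _ => ?_
    rw [hdeg v]
    simp
  have hdisj1 : Disjoint (A.biUnion fun a => (hfin a).toFinset) hfinInf.toFinset := by
    rw [Finset.disjoint_biUnion_left]
    intro a _
    rw [Set.Finite.disjoint_toFinset]
    exact placesOver_disjoint_placesOverInfty x a
  have hdisj2 : (A : Set K).PairwiseDisjoint fun a => (hfin a).toFinset := by
    intro a _ b _ hab
    show Disjoint (hfin a).toFinset (hfin b).toFinset
    rw [Set.Finite.disjoint_toFinset]
    exact placesOver_disjoint x hab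
  have hcard : ∀ a : K, (Nat.card (placesOver x a) : ℤ) = ((hfin a).toFinset.card : ℤ) := by
    intro a
    rw [Nat.card_coe_set_eq, Set.ncard_eq_toFinset_card _ (hfin a)]
  have hcardInf : (Nat.card (placesOverInfty K x) : ℤ) = (hfinInf.toFinset.card : ℤ) := by
    rw [Nat.card_coe_set_eq, Set.ncard_eq_toFinset_card _ hfinInf]
  have hsumA : ∀ a ∈ A, ∑ v ∈ (hfin a).toFinset, C v
      = (n : ℤ) - (Nat.card (placesOver x a) : ℤ) := by
    intro a _
    have h1 : ∑ v ∈ (hfin a).toFinset, C v
        = ∑ v ∈ (hfin a).toFinset, (v.ord (x - algebraMap K F a) - 1) := by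
      refine Finset.sum_congr rfl fun v hv => ?_
      rw [Set.Finite.mem_toFinset] at hv
      exact hCfin v a hv
    rw [h1, Finset.sum_sub_distrib, hsum a, hcard a]
    simp
  have hsumI : ∑ v ∈ hfinInf.toFinset, C v
      = -(n : ℤ) - (Nat.card (placesOverInfty K x) : ℤ) := by
    have h1 : ∑ v ∈ hfinInf.toFinset, C v = ∑ v ∈ hfinInf.toFinset, (-(-v.ord x) - 1) := by
      refine Finset.sum_congr rfl fun v hv => ?_
      rw [Set.Finite.mem_toFinset] at hv
      rw [hCinf v hv, neg_neg]
    rw [h1, Finset.sum_sub_distrib, Finset.sum_neg_distrib, hsumInf, hcardInf]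
    simp
  rw [hDeq, map_add, hGdeg, zero_add, hdegC, hS, Finset.sum_union hdisj1,
    Finset.sum_biUnion hdisj2, Finset.sum_congr rfl hsumA, hsumI]
  ring

end Fermat.Agent.X0
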