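import Mathlib

/-!
# X-ALG (A4): Kähler differentials of a function field in one variable

`K` a field of characteristic `0`, `F/K` a field extension, `x : F` transcendental over `K` with
`F` finite over `K⟮x⟯`. Then `Ω[F⁄K]` is free of rank one over `F` on `D K F x`:

* `exists_linearEquiv_kaehler` : there is an `F`-linear equivalence `Ω[F⁄K] ≃ₗ[F] F` sending
  `D K F x` to `1`;
* `D_ne_zero_of_transcendental`, `span_D_eq_top_of_transcendental`;
* `exists_derivation_of_transcendental` : the derivation `d/dx`.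

Route: `F` is formally étale over `K[X]` (localisation `K[X] → K⟮x⟯`, then a finite separable
extension), hence `Ω[F⁄K] = F ⊗[K[X]] Ω[K[X]⁄K]`, and `Ω[K[X]⁄K]` is free on `D X`.
-/

set_option autoImplicit false
set_option linter.style.haveILetI false

namespace Fermat.Agent.X0

open KaehlerDifferential IntermediateField Polynomial TensorProduct

section Kaehler

variable {K F : Type*} [Field K] [Field F] [Algebra K F] [CharZero K]

/-- `Ω[F⁄K]` is free of rank one on `D x`, for a separating variable `x`. -/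
theorem exists_linearEquiv_kaehler (x : F) (hx : Transcendental K x)
    [FiniteDimensional K⟮x⟯ F] :
    ∃ Φ : Ω[F⁄K] ≃ₗ[F] F, Φ (D K F x) = 1 := by
  -- the `K[X]`-algebra structures on `E = K⟮x⟯` and on `F`
  letI algE : Algebra K[X] K⟮x⟯ := (aeval (AdjoinSimple.gen K x)).toAlgebra
  letI algF : Algebra K[X] F := (aeval x).toAlgebra
  have hE : ∀ g : K[X], algebraMap K[X] K⟮x⟯ g = aeval (AdjoinSimple.gen K x) g := fun _ => rfl
  have hF : ∀ g : K[X], algebraMap K[X] F g = aeval x g := fun _ => rfl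
  haveI : IsScalarTower K K[X] F := IsScalarTower.of_algebraMap_eq fun a => by
    rw [hF, AlgHom.commutes]
  haveI : IsScalarTower K[X] K⟮x⟯ F := IsScalarTower.of_algebraMap_eq fun g => by
    rw [hE, hF, ← aeval_algebraMap_apply, AdjoinSimple.algebraMap_gen]
  -- `K⟮x⟯` is the fraction field of `K[X]`
  let e : RatFunc K ≃ₐ[K[X]] K⟮x⟯ :=
    AlgEquiv.ofRingEquiv (f := (RatFunc.algEquivOfTranscendental x hx).toRingEquiv) fun g => by
      rw [hE]
      exact RatFunc.algEquivOfTranscendental_algebraMap x hx g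
  haveI : IsLocalization (nonZeroDivisors K[X]) K⟮x⟯ :=
    IsLocalization.isLocalization_of_algEquiv (nonZeroDivisors K[X]) e
  haveI : Algebra.FormallyEtale K[X] K⟮x⟯ :=
    Algebra.FormallyEtale.of_isLocalization (Rₘ := K⟮x⟯) (nonZeroDivisors K[X])
  haveI : Algebra.FormallyEtale K⟮x⟯ F := Algebra.FormallyEtale.of_isSeparable K⟮x⟯ F
  haveI : Algebra.FormallyEtale K[X] F := Algebra.FormallyEtale.comp K[X] K⟮x⟯ F
  -- the three equivalences
  let e1 : F ⊗[K[X]] Ω[K[X]⁄K] ≃ₗ[F] Ω[F⁄K] := tensorKaehlerEquivOfFormallyEtale K K[X] F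
  let e2 : F ⊗[K[X]] Ω[K[X]⁄K] ≃ₗ[F] F ⊗[K[X]] K[X] :=
    AlgebraTensorModule.congr (LinearEquiv.refl F F) (polynomialEquiv K)
  let e3 : F ⊗[K[X]] K[X] ≃ₗ[F] F := AlgebraTensorModule.rid K[X] F F
  refine ⟨e1.symm.trans (e2.trans e3), ?_⟩
  have h1 : e1 ((1 : F) ⊗ₜ[K[X]] D K K[X] X) = D K F x := by
    show mapBaseChange K K[X] F _ = _
    rw [mapBaseChange_tmul, one_smul, map_D, hF, aeval_X]
  rw [← h1, LinearEquiv.trans_apply, LinearEquiv.symm_apply_apply, LinearEquiv.trans_apply]
  show e3 ((1 : F) ⊗ₜ[K[X]] polynomialEquiv K (D K K[X] X)) = 1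
  rw [polynomialEquiv_D, derivative_X]
  show (1 : K[X]) • (1 : F) = 1
  rw [one_smul]

/-- `dx ≠ 0` for a separating variable `x`. -/
theorem D_ne_zero_of_transcendental (x : F) (hx : Transcendental K x)
    [FiniteDimensional K⟮x⟯ F] : D K F x ≠ 0 := by
  obtain ⟨Φ, hΦ⟩ := exists_linearEquiv_kaehler x hx
  intro h
  rw [h, map_zero] at hΦ
  exact zero_ne_one hΦ

/-- `dx` spans `Ω[F⁄K]` for a separating variable `x`. -/
theorem span_D_eq_top_of_transcendental (x : F) (hx : Transcendental K x)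
    [FiniteDimensional K⟮x⟯ F] : Submodule.span F {D K F x} = ⊤ := by
  obtain ⟨Φ, hΦ⟩ := exists_linearEquiv_kaehler x hx
  rw [eq_top_iff]
  intro ω _
  rw [Submodule.mem_span_singleton]
  refine ⟨Φ ω, Φ.injective ?_⟩
  rw [map_smul, hΦ, smul_eq_mul, mul_one]

/-- The derivation `d/dx` of `F` attached to a separating variable `x`: it sends `x` to `1`, and
`dy = (dy/dx) dx` for all `y`. -/
theorem exists_derivation_of_transcendental (x : F) (hx : Transcendental K x)
    [FiniteDimensional K⟮x⟯ F] :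
    ∃ δ : Derivation K F F, δ x = 1 ∧ ∀ y : F, D K F y = δ y • D K F x := by
  obtain ⟨Φ, hΦ⟩ := exists_linearEquiv_kaehler x hx
  refine ⟨(Φ : Ω[F⁄K] →ₗ[F] F).compDer (D K F), hΦ, fun y => Φ.injective ?_⟩
  rw [map_smul, hΦ, smul_eq_mul, mul_one]
  rfl

/-- Uniqueness of `d/dx`: a `K`-derivation of `F` is determined by its value at `x`. -/
theorem derivation_ext_of_transcendental (x : F) (hx : Transcendental K x)
    [FiniteDimensional K⟮x⟯ F] {M : Type*} [AddCommGroup M] [Module K M] [Module F M]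
    [IsScalarTower K F M] {δ δ' : Derivation K F M} (h : δ x = δ' x) : δ = δ' := by
  obtain ⟨δ₀, -, hδ₀⟩ := exists_derivation_of_transcendental (K := K) x hx
  have key : ∀ (d : Derivation K F M) (y : F), d y = δ₀ y • d x := by
    intro d y
    have h1 := congrArg (d.liftKaehlerDifferential) (hδ₀ y)
    rwa [map_smul, Derivation.liftKaehlerDifferential_comp_D,
      Derivation.liftKaehlerDifferential_comp_D] at h1
  ext y
  rw [key δ y, key δ' y, h]

end Kaehler

end Fermat.Agent.X0
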