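import Fermat.Agent.X0.Defs
import Fermat.Agent.X0.Alg.Kaehler

/-!
# X-ALG (A4): Kähler differentials, in the `IsSepVar` language of `X0/Defs.lean`

`D_ne_zero_of_isSepVar` is the interface lemma (ALG-Ω) of the X0 skeleton.
-/

set_option autoImplicit false
set_option linter.style.haveILetI false

namespace Fermat.Agent.X0

open KaehlerDifferential IntermediateField

variable {K F : Type*} [Field K] [Field F] [Algebra K F] [CharZero K]

/-- (ALG-Ω) `dx ≠ 0` for a separating variable. -/
theorem D_ne_zero_of_isSepVar {x : F} {n : ℕ} (hx : IsSepVar K x n) : D K F x ≠ 0 :=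
  haveI := hx.finite
  D_ne_zero_of_transcendental x hx.transcendental

/-- `dx` spans `Ω[F⁄K]` for a separating variable. -/
theorem span_D_eq_top_of_isSepVar {x : F} {n : ℕ} (hx : IsSepVar K x n) :
    Submodule.span F {D K F x} = ⊤ :=
  haveI := hx.finite
  span_D_eq_top_of_transcendental x hx.transcendental

/-- The derivation `d/dx` attached to a separating variable. -/
theorem exists_derivation_of_isSepVar {x : F} {n : ℕ} (hx : IsSepVar K x n) :
    ∃ δ : Derivation K F F, δ x = 1 ∧ ∀ y : F, D K F y = δ y • D K F x :=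
  haveI := hx.finite
  exists_derivation_of_transcendental x hx.transcendental

/-- `Ω[F⁄K]` is nontrivial when `F/K` has a separating variable. -/
theorem nontrivial_kaehler_of_isSepVar {x : F} {n : ℕ} (hx : IsSepVar K x n) :
    Nontrivial Ω[F⁄K] :=
  ⟨⟨D K F x, 0, D_ne_zero_of_isSepVar hx⟩⟩

end Fermat.Agent.X0
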