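import Mathlib
import Fermat.Agent.X0.Defs
import Fermat.Agent.X0.Alg.KaehlerSepVar

/-!
# X-ALG (A3, part 1): every nonconstant function is a separating variable

`F/K` a function field in one variable (`x` a separating variable). Then every `f : F`
transcendental over `K` is again a separating variable (`isSepVar_of_transcendental`). Over an
algebraically closed `K`, every `f` with `v.ord f ≠ 0` at some place `v` is transcendental; hence
(with A4) the differential of a local uniformizer spans `Ω[F⁄K]`: `dCoordGenerates_of_isSepVar`.
-/

set_option autoImplicit false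

namespace Fermat.Agent.X0

open AlgebraicCurve IntermediateField KaehlerDifferential

namespace PrincipalDeg

universe u v

section Field

variable {K : Type u} {F : Type v} [Field K] [Field F] [Algebra K F]

/-- Transcendence degree one: if `F` is algebraic over `K(x)` and `f` is transcendental over `K`,
then `F` is algebraic over `K(f)`. -/
theorem isAlgebraic_adjoin_simple_of_transcendental (x f : F) [Algebra.IsAlgebraic K⟮x⟯ F]
    (hf : Transcendental K f) : Algebra.IsAlgebraic K⟮f⟯ F := by
  have h1 : Algebra.IsAlgebraic (Algebra.adjoin K ({x} : Set F)) F :=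
    IntermediateField.isAlgebraic_adjoin_iff_top.mp ‹_›
  have h2 : Algebra.trdeg K F ≤ 1 := by
    have := Algebra.IsAlgebraic.trdeg_le_cardinalMk K ({x} : Set F)
    simpa using this
  have hind : AlgebraicIndependent K (fun _ : PUnit.{v+1} => f) := by
    rw [algebraicIndependent_unique_type_iff]
    exact hf
  have hb : IsTranscendenceBasis K (fun _ : PUnit.{v+1} => f) :=
    hind.isTranscendenceBasis_of_trdeg_le_of_finite (by simpa using h2)
  have := hb.isAlgebraic_field
  rwa [Set.range_const] at this

/-- If `F` is finite over `K(x)` and `f` is transcendental over `K`, then `F` is finite over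
`K(f)`. -/
theorem finiteDimensional_adjoin_simple_of_transcendental (x f : F) [FiniteDimensional K⟮x⟯ F]
    (hf : Transcendental K f) : FiniteDimensional K⟮f⟯ F := by
  have halg : Algebra.IsAlgebraic K⟮f⟯ F := isAlgebraic_adjoin_simple_of_transcendental x f hf
  -- `F = K⟮f⟯(x, b₁, …, bₘ)`
  let b := Module.finBasis K⟮x⟯ F
  let S : Set F := insert x (Set.range b)
  have hS : S.Finite := (Set.finite_range b).insert x
  have : Finite S := hS
  have hfd : FiniteDimensional K⟮f⟯ (adjoin K⟮f⟯ S) :=
    IntermediateField.finiteDimensional_adjoin
      fun y _ => (Algebra.IsAlgebraic.isAlgebraic y).isIntegral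
  have hxS : x ∈ adjoin K⟮f⟯ S := subset_adjoin K⟮f⟯ S (Set.mem_insert _ _)
  have hle : K⟮x⟯ ≤ (adjoin K⟮f⟯ S).restrictScalars K := by
    rw [adjoin_simple_le_iff, IntermediateField.mem_restrictScalars]
    exact hxS
  have hmem : ∀ c : K⟮x⟯, (c : F) ∈ adjoin K⟮f⟯ S := fun c => hle c.2
  have htop : adjoin K⟮f⟯ S = ⊤ := by
    rw [eq_top_iff]
    intro y _
    have hy := b.sum_repr y
    rw [← hy]
    refine sum_mem fun i _ => ?_
    have h1 : b i ∈ adjoin K⟮f⟯ S :=
      subset_adjoin _ _ (Set.mem_insert_of_mem _ (Set.mem_range_self i))
    have h2 : (b.repr y i) • b i = ((b.repr y i : K⟮x⟯) : F) * b i := rfl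
    rw [h2]
    exact mul_mem (hmem _) h1
  rw [htop] at hfd
  exact (IntermediateField.topEquiv (F := K⟮f⟯) (E := F)).toLinearEquiv.finiteDimensional

/-- Every nonconstant function is a separating variable. -/
theorem isSepVar_of_transcendental {x : F} {n : ℕ} (hx : IsSepVar K x n) {f : F}
    (hf : Transcendental K f) : IsSepVar K f (Module.finrank K⟮f⟯ F) := by
  have := hx.finite
  exact ⟨hf, finiteDimensional_adjoin_simple_of_transcendental x f hf, rfl⟩

/-- Over an algebraically closed field, algebraic elements are constants. -/
theorem exists_algebraMap_eq_of_isAlgebraic [IsAlgClosed K] {f : F} (hf : IsAlgebraic K f) :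
    ∃ c : K, algebraMap K F c = f := by
  have hint : IsIntegral K f := hf.isIntegral
  have hdeg : (minpoly K f).degree = 1 :=
    IsAlgClosed.degree_eq_one_of_irreducible K (minpoly.irreducible hint)
  exact minpoly.mem_range_of_degree_eq_one K f hdeg

/-- Nonzero constants have order zero at every place. -/
theorem ord_algebraMap_eq_zero (v : Place K F) (c : K) : v.ord (algebraMap K F c) = 0 := by
  rcases eq_or_ne c 0 with rfl | hc
  · simp
  · have h := v.ord_coe_unit (Units.map (algebraMap K v.toValuationSubring).toMonoidHom
      (Units.mk0 c hc))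
    simpa using h

/-- A function with a zero or a pole is not constant. -/
theorem transcendental_of_ord_ne_zero [IsAlgClosed K] (v : Place K F) {t : F}
    (ht : v.ord t ≠ 0) : Transcendental K t := by
  intro halg
  obtain ⟨c, rfl⟩ := exists_algebraMap_eq_of_isAlgebraic halg
  exact ht (ord_algebraMap_eq_zero v c)

/-- The local coordinate differential `v.dCoord` is `dt` for a uniformizer `t` at `v`. -/
theorem exists_dCoord_eq (v : Place K F) : ∃ t : F, v.ord t = 1 ∧ v.dCoord = D K F t := by
  refine ⟨_, ?_, rfl⟩
  exact v.ord_coe_irreducible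
    (IsDiscreteValuationRing.exists_irreducible v.toValuationSubring).choose_spec

end Field

end PrincipalDeg

section DCoord

variable {K F : Type*} [Field K] [Field F] [Algebra K F] [IsAlgClosed K] [CharZero K]

open PrincipalDeg

omit [CharZero K] in
/-- A function with a zero or a pole is a separating variable. -/
theorem isSepVar_of_ord_ne_zero {x : F} {n : ℕ} (hx : IsSepVar K x n) (v : Place K F) {t : F}
    (ht : v.ord t ≠ 0) : IsSepVar K t (Module.finrank K⟮t⟯ F) :=
  isSepVar_of_transcendental hx (transcendental_of_ord_ne_zero v ht)

/-- The differential of any local parameter (indeed of any function with a zero or pole)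
spans `Ω[F⁄K]`. -/
theorem span_D_eq_top_of_ord_ne_zero {x : F} {n : ℕ} (hx : IsSepVar K x n) (v : Place K F)
    {t : F} (ht : v.ord t ≠ 0) : Submodule.span F {D K F t} = ⊤ :=
  span_D_eq_top_of_isSepVar (isSepVar_of_ord_ne_zero hx v ht)

/-- The prelude's hypothesis `DCoordGenerates` holds at every place of a function field in one
variable over an algebraically closed field of characteristic zero. -/
theorem dCoordGenerates_of_isSepVar {x : F} {n : ℕ} (hx : IsSepVar K x n) (v : Place K F) :
    v.DCoordGenerates := by
  obtain ⟨t, ht, hd⟩ := exists_dCoord_eq v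
  refine ⟨?_⟩
  rw [hd]
  exact span_D_eq_top_of_ord_ne_zero hx v (by rw [ht]; exact one_ne_zero)

end DCoord

end Fermat.Agent.X0
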