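import Mathlib
import Fermat.Prelude.Def_AlgebraicCurve_CanonicalDivisor

/-!
# X-ALG (A5), local part: derivations and the order function at a place

`v : Place K F`, `t : F` with `v.ord t = 1`, `δ : Derivation K F F`.

* `OrdDx.mem_iff_ord_nonneg`, `OrdDx.isUnit_mk_iff` … : small API for `Place.ord`.
* `OrdDx.derivation_mem_of_bound` : if `t ^ M * δ z ∈ O_v` for all `z ∈ O_v` (some fixed `M`), the
  residue field is `K` and `δ t ∈ O_v`, then `δ` preserves `O_v`.
* `OrdDx.ord_derivation_eq` : if `δ` preserves `O_v` and `δ t = 1` (characteristic zero), then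
  `ord (δ f) = ord f - 1` whenever `ord f ≠ 0`.
-/

set_option autoImplicit false

open AlgebraicCurve

namespace Fermat.Agent.X0.OrdDx

variable {K F : Type*} [Field K] [Field F] [Algebra K F] (v : Place K F)

theorem ord_nonneg_of_mem {f : F} (hf : f ∈ v.toValuationSubring) : 0 ≤ v.ord f := by
  rcases eq_or_ne f 0 with rfl | hf0
  · simp
  obtain ⟨π, hπ⟩ := IsDiscreteValuationRing.exists_irreducible v.toValuationSubring
  obtain ⟨n, u, hu⟩ :=
    IsDiscreteValuationRing.eq_unit_mul_pow_irreducible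
      (x := (⟨f, hf⟩ : v.toValuationSubring)) (by simpa [Subtype.ext_iff] using hf0) hπ
  have hcoe : f = ((u : v.toValuationSubring) : F) * ((π : F) ^ (n : ℤ)) := by
    have h := congrArg (Subtype.val) hu
    push_cast at h
    rw [zpow_natCast]
    exact h
  rw [hcoe, v.ord_unit_smul_zpow u hπ (n : ℤ)]
  exact Int.natCast_nonneg n

theorem mem_of_ord_nonneg {f : F} (hf : f ≠ 0) (h : 0 ≤ v.ord f) :
    f ∈ v.toValuationSubring := by
  obtain ⟨π, hπ⟩ := IsDiscreteValuationRing.exists_irreducible v.toValuationSubring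
  obtain ⟨u, hu⟩ := v.exists_unit_mul_zpow hf hπ
  rw [hu, show v.ord f = (((v.ord f).toNat : ℕ) : ℤ) from (Int.toNat_of_nonneg h).symm,
    zpow_natCast]
  exact mul_mem (u : v.toValuationSubring).2 (pow_mem (π : v.toValuationSubring).2 _)

theorem mem_iff_ord_nonneg {f : F} (hf : f ≠ 0) :
    f ∈ v.toValuationSubring ↔ 0 ≤ v.ord f :=
  ⟨ord_nonneg_of_mem v, mem_of_ord_nonneg v hf⟩

/-- Elements of order `0` are exactly the units of the valuation ring. -/
theorem inv_mem_of_ord_eq_zero {f : F} (h : v.ord f = 0) : f⁻¹ ∈ v.toValuationSubring := by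
  rcases eq_or_ne f 0 with rfl | hf
  · simp
  exact mem_of_ord_nonneg v (inv_ne_zero hf) (by rw [v.ord_inv, h, neg_zero])

theorem mem_of_ord_eq_zero {f : F} (h : v.ord f = 0) : f ∈ v.toValuationSubring := by
  rcases eq_or_ne f 0 with rfl | hf
  · exact zero_mem _
  exact mem_of_ord_nonneg v hf h.ge

theorem ord_eq_zero_of_mem_of_inv_mem {f : F} (h1 : f ∈ v.toValuationSubring)
    (h2 : f⁻¹ ∈ v.toValuationSubring) : v.ord f = 0 := by
  have a := ord_nonneg_of_mem v h1
  have b := ord_nonneg_of_mem v h2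
  rw [v.ord_inv] at b
  omega

/-- Nonzero constants have order `0`. -/
theorem ord_algebraMap (c : K) : v.ord (algebraMap K F c) = 0 := by
  refine ord_eq_zero_of_mem_of_inv_mem v (v.algebraMap_mem' c) ?_
  rw [← map_inv₀]
  exact v.algebraMap_mem' c⁻¹

theorem ne_zero_of_ord_ne_zero {f : F} (h : v.ord f ≠ 0) : f ≠ 0 := by
  rintro rfl
  exact h v.ord_zero

/-- Elements of positive order are non-units of the valuation ring. -/
theorem not_isUnit_of_ord_pos {f : F} (hf : f ∈ v.toValuationSubring) (h : 0 < v.ord f) :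
    ¬ IsUnit (⟨f, hf⟩ : v.toValuationSubring) := by
  rintro ⟨u, hu⟩
  have := v.ord_coe_unit u
  rw [hu] at this
  change v.ord f = 0 at this
  omega

theorem isUnit_of_ord_eq_zero {f : F} (hf0 : f ≠ 0) (h : v.ord f = 0) :
    IsUnit (⟨f, mem_of_ord_eq_zero v h⟩ : v.toValuationSubring) := by
  refine IsUnit.of_mul_eq_one (⟨f⁻¹, inv_mem_of_ord_eq_zero v h⟩ : v.toValuationSubring) ?_
  exact Subtype.ext (mul_inv_cancel₀ hf0)

/-- Decomposition `f = u * t ^ ord f` with `ord u = 0`, for any `t` with `ord t = 1`. -/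
theorem exists_eq_mul_zpow {t : F} (ht : v.ord t = 1) {f : F} (hf : f ≠ 0) :
    ∃ u : F, u ≠ 0 ∧ v.ord u = 0 ∧ f = u * t ^ v.ord f := by
  have ht0 : t ≠ 0 := ne_zero_of_ord_ne_zero v (by rw [ht]; exact one_ne_zero)
  refine ⟨f * (t ^ v.ord f)⁻¹, mul_ne_zero hf (inv_ne_zero (zpow_ne_zero _ ht0)), ?_, ?_⟩
  · rw [v.ord_mul hf (inv_ne_zero (zpow_ne_zero _ ht0)), v.ord_inv, v.ord_zpow, ht, mul_one,
      add_neg_cancel]
  · rw [inv_mul_cancel_right₀ (zpow_ne_zero _ ht0)]

section Derivation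

variable (δ : Derivation K F F) {t : F}

/-- If `t ^ M * δ z ∈ O_v` for all `z ∈ O_v`, the residue field of `v` is `K` and `δ t ∈ O_v`, then
`δ` preserves `O_v`. -/
theorem derivation_mem_of_bound (ht : t ∈ v.toValuationSubring)
    (hδt : δ t ∈ v.toValuationSubring)
    (hres : ∀ z ∈ v.toValuationSubring, ∃ c : K, ∃ z₁ ∈ v.toValuationSubring,
      z = algebraMap K F c + t * z₁)
    (M : ℕ) (hM : ∀ z ∈ v.toValuationSubring, t ^ M * δ z ∈ v.toValuationSubring) :
    ∀ z ∈ v.toValuationSubring, δ z ∈ v.toValuationSubring := by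
  induction M with
  | zero => simpa using hM
  | succ M ih =>
    refine ih fun z hz => ?_
    obtain ⟨c, z₁, hz₁, rfl⟩ := hres z hz
    have h1 : δ (algebraMap K F c + t * z₁) = z₁ * δ t + t * δ z₁ := by
      rw [map_add, Derivation.map_algebraMap, zero_add, Derivation.leibniz, smul_eq_mul,
        smul_eq_mul, add_comm]
    rw [h1, mul_add]
    refine add_mem (mul_mem (pow_mem ht M) (mul_mem hz₁ hδt)) ?_
    have := hM z₁ hz₁
    rwa [pow_succ, mul_assoc] at this

/-- If `δ` preserves `O_v`, `δ t = 1` and `ord t = 1`, then in characteristic zero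
`ord (δ f) = ord f - 1` for all `f` with `ord f ≠ 0`. -/
theorem ord_derivation_eq [CharZero K] (ht : v.ord t = 1) (hδt : δ t = 1)
    (hδ : ∀ z ∈ v.toValuationSubring, δ z ∈ v.toValuationSubring) {f : F}
    (he : v.ord f ≠ 0) : δ f ≠ 0 ∧ v.ord (δ f) = v.ord f - 1 := by
  have hf : f ≠ 0 := ne_zero_of_ord_ne_zero v he
  have ht0 : t ≠ 0 := ne_zero_of_ord_ne_zero v (by rw [ht]; exact one_ne_zero)
  have htmem : t ∈ v.toValuationSubring := mem_of_ord_nonneg v ht0 (by rw [ht]; exact zero_le_one)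
  obtain ⟨u, hu0, hu, hfu⟩ := exists_eq_mul_zpow v ht hf
  set e : ℤ := v.ord f with he'
  have humem : u ∈ v.toValuationSubring := mem_of_ord_eq_zero v hu
  -- the derivative
  have hder : δ f = t ^ (e - 1) * (t * δ u + (e : F) * u) := by
    rw [hfu, Derivation.leibniz, Derivation.leibniz_zpow, hδt, smul_eq_mul, smul_eq_mul,
      smul_eq_mul, mul_one, zsmul_eq_mul]
    have : t ^ e = t ^ (e - 1) * t := by
      rw [← zpow_add_one₀ ht0, sub_add_cancel]
    rw [this]
    ring
  -- `w = t * δ u + e * u` is a unit of `O_v`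
  have hecast : (e : F) = algebraMap K F (e : K) := by
    rw [map_intCast]
  have he0 : (e : K) ≠ 0 := by exact_mod_cast he
  have heu_ord : v.ord ((e : F) * u) = 0 := by
    rw [v.ord_mul (by rw [hecast]; exact (map_ne_zero _).mpr he0) hu0, hecast,
      ord_algebraMap, hu, add_zero]
  have heu0 : (e : F) * u ≠ 0 :=
    mul_ne_zero (by rw [hecast]; exact (map_ne_zero _).mpr he0) hu0
  have hA : IsUnit (⟨(e : F) * u, mem_of_ord_eq_zero v heu_ord⟩ : v.toValuationSubring) :=
    isUnit_of_ord_eq_zero v heu0 heu_ord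
  have hBmem : t * δ u ∈ v.toValuationSubring := mul_mem htmem (hδ u humem)
  have hB : (⟨t * δ u, hBmem⟩ : v.toValuationSubring) ∈
      IsLocalRing.maximalIdeal v.toValuationSubring := by
    have ht' : (⟨t, htmem⟩ : v.toValuationSubring) ∈
        IsLocalRing.maximalIdeal v.toValuationSubring := by
      rw [IsLocalRing.mem_maximalIdeal, mem_nonunits_iff]
      exact not_isUnit_of_ord_pos v htmem (by rw [ht]; exact one_pos)
    have : (⟨t * δ u, hBmem⟩ : v.toValuationSubring) =
        ⟨t, htmem⟩ * ⟨δ u, hδ u humem⟩ := rfl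
    rw [this]
    exact Ideal.mul_mem_right _ _ ht'
  have hW : IsUnit ((⟨t * δ u, hBmem⟩ : v.toValuationSubring) +
      ⟨(e : F) * u, mem_of_ord_eq_zero v heu_ord⟩) := by
    by_contra hnu
    have h1 : (⟨t * δ u, hBmem⟩ : v.toValuationSubring) +
        ⟨(e : F) * u, mem_of_ord_eq_zero v heu_ord⟩ ∈
        IsLocalRing.maximalIdeal v.toValuationSubring := by
      rwa [IsLocalRing.mem_maximalIdeal, mem_nonunits_iff]
    have h2 := sub_mem h1 hB
    rw [add_sub_cancel_left, IsLocalRing.mem_maximalIdeal, mem_nonunits_iff] at h2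
    exact h2 hA
  obtain ⟨W, hWeq⟩ := hW
  have hw_ord : v.ord (t * δ u + (e : F) * u) = 0 := by
    have := v.ord_coe_unit W
    rw [hWeq] at this
    exact this
  have hw0 : t * δ u + (e : F) * u ≠ 0 := by
    intro h0
    have h3 : ((W : v.toValuationSubring) : F) = 0 := by rw [hWeq]; exact h0
    exact W.ne_zero (Subtype.ext h3)
  refine ⟨?_, ?_⟩
  · rw [hder]
    exact mul_ne_zero (zpow_ne_zero _ ht0) hw0
  · rw [hder, v.ord_mul (zpow_ne_zero _ ht0) hw0, v.ord_zpow, ht, hw_ord, mul_one, add_zero]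

end Derivation

end Fermat.Agent.X0.OrdDx
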