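import Mathlib

/-!
# PROGRAM X, X-ALG A4: Kähler differentials of a function field of one variable

`K` a field of characteristic `0`, `F/K` a field extension, `x : F` transcendental over `K` with
`F` finite over `K⟮x⟯`. Then `Ω[F⁄K]` is free of rank one over `F`, generated by `D x`.

* `alg_exists_kaehler_equiv` : an `F`-linear equivalence `Ω[F⁄K] ≃ₗ[F] F` sending `D x` to `1`;
* `alg_D_ne_zero`, `alg_span_D_eq_top`, `alg_finrank_kaehler`;
* `alg_derivWrt x : Derivation K F F`, the derivation `d/dx`, with `alg_derivWrt_self` and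
  `alg_D_eq_derivWrt_smul : D y = (d y / d x) • D x`.
-/

set_option autoImplicit false

namespace Fermat.Agent.X0

open KaehlerDifferential IntermediateField Polynomial TensorProduct

section Kaehler

variable {K F : Type*} [Field K] [Field F] [Algebra K F]

section

variable [CharZero K]

/-- `Ω[F⁄K] ≃ F`, `D x ↦ 1`, for a separating variable `x` of a function field `F/K` of one
variable in characteristic zero. -/
theorem alg_exists_kaehler_equiv {x : F} (hx : Transcendental K x) [FiniteDimensional K⟮x⟯ F] :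
    ∃ e : Ω[F⁄K] ≃ₗ[F] F, e (D K F x) = 1 := by
  let algXL : Algebra K[X] K⟮x⟯ := (aeval (AdjoinSimple.gen K x)).toAlgebra
  let algXF : Algebra K[X] F := (aeval x).toAlgebra
  have hXL : ∀ g : K[X], algebraMap K[X] K⟮x⟯ g = aeval (AdjoinSimple.gen K x) g := fun _ => rfl
  have hXF : ∀ g : K[X], algebraMap K[X] F g = aeval x g := fun _ => rfl
  have : IsScalarTower K K[X] K⟮x⟯ := IsScalarTower.of_algebraMap_eq fun a => by
    rw [hXL, Polynomial.algebraMap_apply, aeval_C, Algebra.algebraMap_self, RingHom.id_apply]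
  have : IsScalarTower K K[X] F := IsScalarTower.of_algebraMap_eq fun a => by
    rw [hXF, Polynomial.algebraMap_apply, aeval_C, Algebra.algebraMap_self, RingHom.id_apply]
  have : IsScalarTower K[X] K⟮x⟯ F := IsScalarTower.of_algebraMap_eq fun g => by
    rw [hXF, hXL, ← aeval_algebraMap_apply, AdjoinSimple.algebraMap_gen]
  have : IsFractionRing K[X] K⟮x⟯ := by
    let e : RatFunc K ≃ₐ[K[X]] K⟮x⟯ :=
      AlgEquiv.ofRingEquiv (f := (RatFunc.algEquivOfTranscendental x hx).toRingEquiv)
        (fun g => RatFunc.algEquivOfTranscendental_algebraMap x hx g)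
    exact IsLocalization.isLocalization_of_algEquiv _ e
  have : Algebra.FormallyEtale K[X] K⟮x⟯ :=
    Algebra.FormallyEtale.of_isLocalization (nonZeroDivisors K[X])
  have : Algebra.IsSeparable K⟮x⟯ F := inferInstance
  have : Algebra.FormallyEtale K⟮x⟯ F := Algebra.FormallyEtale.of_isSeparable _ _
  have : Algebra.FormallyEtale K[X] F := Algebra.FormallyEtale.comp K[X] K⟮x⟯ F
  let e1 : F ⊗[K[X]] Ω[K[X]⁄K] ≃ₗ[F] Ω[F⁄K] := tensorKaehlerEquivOfFormallyEtale K K[X] F
  let e2 : F ⊗[K[X]] Ω[K[X]⁄K] ≃ₗ[F] F ⊗[K[X]] K[X] :=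
    LinearEquiv.baseChange K[X] F _ _ (polynomialEquiv K)
  let e3 : F ⊗[K[X]] K[X] ≃ₗ[F] F := TensorProduct.AlgebraTensorModule.rid K[X] F F
  refine ⟨e1.symm ≪≫ₗ e2 ≪≫ₗ e3, ?_⟩
  have h1 : e1 (1 ⊗ₜ D K K[X] X) = D K F x := by
    simp only [e1, tensorKaehlerEquivOfFormallyEtale_apply, mapBaseChange_tmul, map_D, one_smul,
      hXF, aeval_X]
  rw [← h1]
  simp [e2, e3]

theorem alg_D_ne_zero {x : F} (hx : Transcendental K x) [FiniteDimensional K⟮x⟯ F] :
    D K F x ≠ 0 := by
  obtain ⟨e, he⟩ := alg_exists_kaehler_equiv hx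
  intro h
  rw [h, map_zero] at he
  exact zero_ne_one he

theorem alg_span_D_eq_top {x : F} (hx : Transcendental K x) [FiniteDimensional K⟮x⟯ F] :
    Submodule.span F {D K F x} = ⊤ := by
  obtain ⟨e, he⟩ := alg_exists_kaehler_equiv hx
  rw [eq_top_iff]
  intro ω _
  rw [Submodule.mem_span_singleton]
  refine ⟨e ω, e.injective ?_⟩
  rw [map_smul, he, smul_eq_mul, mul_one]

theorem alg_finrank_kaehler {x : F} (hx : Transcendental K x) [FiniteDimensional K⟮x⟯ F] :
    Module.finrank F Ω[F⁄K] = 1 := by
  obtain ⟨e, -⟩ := alg_exists_kaehler_equiv hx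
  rw [e.finrank_eq, Module.finrank_self]

end

open Classical in
/-- The derivation `d/dx` of `F` (junk value `0` if `Ω[F⁄K]` is not free on `D x`). -/
noncomputable def alg_derivWrt (K : Type*) {F : Type*} [Field K] [Field F] [Algebra K F] (x : F) :
    Derivation K F F :=
  if h : ∃ e : Ω[F⁄K] ≃ₗ[F] F, e (D K F x) = 1 then
    (h.choose : Ω[F⁄K] →ₗ[F] F).compDer (D K F)
  else 0

variable [CharZero K]

theorem alg_derivWrt_self {x : F} (hx : Transcendental K x) [FiniteDimensional K⟮x⟯ F] :
    alg_derivWrt K x x = 1 := by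
  have h := alg_exists_kaehler_equiv hx
  rw [alg_derivWrt, dif_pos h]
  exact h.choose_spec

/-- `dy = (dy/dx) dx`. -/
theorem alg_D_eq_derivWrt_smul {x : F} (hx : Transcendental K x) [FiniteDimensional K⟮x⟯ F]
    (y : F) : D K F y = alg_derivWrt K x y • D K F x := by
  have h := alg_exists_kaehler_equiv hx
  rw [alg_derivWrt, dif_pos h]
  apply h.choose.injective
  rw [map_smul, h.choose_spec, smul_eq_mul, mul_one]
  rfl

/-- Every differential is a multiple of `dx`. -/
theorem alg_exists_eq_smul_D {x : F} (hx : Transcendental K x) [FiniteDimensional K⟮x⟯ F]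
    (ω : Ω[F⁄K]) : ∃ f : F, ω = f • D K F x := by
  have h : ω ∈ Submodule.span F {D K F x} := by rw [alg_span_D_eq_top hx]; trivial
  obtain ⟨f, hf⟩ := Submodule.mem_span_singleton.mp h
  exact ⟨f, hf.symm⟩

/-- `D y ≠ 0 ↔ dy/dx ≠ 0`. -/
theorem alg_D_ne_zero_iff {x : F} (hx : Transcendental K x) [FiniteDimensional K⟮x⟯ F] (y : F) :
    D K F y ≠ 0 ↔ alg_derivWrt K x y ≠ 0 := by
  rw [alg_D_eq_derivWrt_smul hx y, Ne, smul_eq_zero, not_or]
  exact ⟨fun h => h.1, fun h => ⟨h, alg_D_ne_zero hx⟩⟩

/-- If `D y ≠ 0` then `D y` also generates `Ω[F⁄K]`. -/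
theorem alg_span_D_eq_top_of_ne_zero {x : F} (hx : Transcendental K x)
    [FiniteDimensional K⟮x⟯ F] {y : F} (hy : D K F y ≠ 0) :
    Submodule.span F {D K F y} = ⊤ := by
  rw [eq_top_iff, ← alg_span_D_eq_top hx, Submodule.span_singleton_le_iff_mem,
    Submodule.mem_span_singleton]
  have h1 := (alg_D_ne_zero_iff hx y).mp hy
  refine ⟨(alg_derivWrt K x y)⁻¹, ?_⟩
  rw [alg_D_eq_derivWrt_smul hx y, smul_smul, inv_mul_cancel₀ h1, one_smul]

end Kaehler

/-! ### Every transcendental element is a separating variable -/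

section Fin

variable {K F : Type*} [Field K] [Field F] [Algebra K F]

open scoped algebraAdjoinAdjoin in
theorem alg_trdeg_le_one {x : F} [Algebra.IsAlgebraic K⟮x⟯ F] : Algebra.trdeg K F ≤ 1 := by
  have h1 : Algebra.IsAlgebraic (Algebra.adjoin K {x}) F := by
    have : IsScalarTower (Algebra.adjoin K {x}) K⟮x⟯ F :=
      IsScalarTower.of_algebraMap_eq (fun _ => rfl)
    exact (IsFractionRing.comap_isAlgebraic_iff (A := Algebra.adjoin K {x}) (K := K⟮x⟯)
      (C := F)).mpr inferInstance
  have := Algebra.IsAlgebraic.trdeg_le_cardinalMk K ({x} : Set F)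
  simpa using this

/-- In a function field of one variable, `F` is algebraic over `K(t)` for every transcendental
`t`. -/
theorem alg_isAlgebraic_adjoin_simple {x t : F} [Algebra.IsAlgebraic K⟮x⟯ F]
    (ht : Transcendental K t) : Algebra.IsAlgebraic K⟮t⟯ F := by
  have h1 : AlgebraicIndependent K (fun _ : PUnit => t) :=
    algebraicIndependent_unique_type_iff.mpr ht
  have h2 : IsTranscendenceBasis K (fun _ : PUnit => t) := by
    apply h1.isTranscendenceBasis_of_trdeg_le_of_finite
    simpa using alg_trdeg_le_one (K := K) (x := x)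
  have h3 := h2.isAlgebraic_field
  have h4 : Set.range (fun _ : PUnit => t) = {t} := by
    ext; simp [eq_comm]
  rwa [h4] at h3

/-- In a function field of one variable, `F` is finite over `K(t)` for every transcendental
`t`. -/
theorem alg_finiteDimensional_adjoin_simple {x t : F} [FiniteDimensional K⟮x⟯ F]
    (ht : Transcendental K t) : FiniteDimensional K⟮t⟯ F := by
  have h0 : Algebra.EssFiniteType K K⟮x⟯ :=
    IntermediateField.essFiniteType_iff.mpr ⟨{x}, by simp⟩
  have h1 : Algebra.EssFiniteType K F := Algebra.EssFiniteType.comp K K⟮x⟯ F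
  have h2 : Algebra.EssFiniteType K⟮t⟯ F := Algebra.EssFiniteType.of_comp K K⟮t⟯ F
  have h3 : Algebra.IsAlgebraic K⟮t⟯ F := alg_isAlgebraic_adjoin_simple (x := x) ht
  exact Algebra.finite_of_essFiniteType_of_isAlgebraic

variable [CharZero K]

/-- `dt ≠ 0` for every transcendental `t` (characteristic zero). -/
theorem alg_D_ne_zero_of_transcendental {x t : F} [FiniteDimensional K⟮x⟯ F]
    (ht : Transcendental K t) : D K F t ≠ 0 := by
  have := alg_finiteDimensional_adjoin_simple (K := K) (x := x) ht
  exact alg_D_ne_zero ht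

/-- `dt` generates `Ω[F⁄K]` for every transcendental `t` (characteristic zero). -/
theorem alg_span_D_eq_top_of_transcendental {x t : F} [FiniteDimensional K⟮x⟯ F]
    (ht : Transcendental K t) : Submodule.span F {D K F t} = ⊤ := by
  have := alg_finiteDimensional_adjoin_simple (K := K) (x := x) ht
  exact alg_span_D_eq_top ht

/-- `dt = 0` for algebraic `t` (characteristic zero). -/
theorem alg_D_eq_zero_of_isAlgebraic {t : F} (ht : IsAlgebraic K t) : D K F t = 0 := by
  have hint : IsIntegral K t := ht.isIntegral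
  have h1 : D K F (aeval t (minpoly K t)) = 0 := by rw [minpoly.aeval, map_zero]
  rw [Derivation.map_aeval] at h1
  have hsep : (minpoly K t).Separable := (minpoly.irreducible hint).separable
  have h2 : aeval t (derivative (minpoly K t)) ≠ 0 :=
    hsep.aeval_derivative_ne_zero (minpoly.aeval K t)
  exact (smul_eq_zero.mp h1).resolve_left h2

omit [CharZero K] in
/-- Over an algebraically closed field, an element outside the constants is transcendental. -/
theorem alg_transcendental_of_not_mem_range [IsAlgClosed K] {t : F}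
    (ht : t ∉ Set.range (algebraMap K F)) : Transcendental K t := by
  intro halg
  apply ht
  have hint : IsIntegral K t := halg.isIntegral
  have hdeg : (minpoly K t).degree = 1 :=
    IsAlgClosed.degree_eq_one_of_irreducible K (minpoly.irreducible hint)
  exact minpoly.mem_range_of_degree_eq_one K t hdeg

end Fin

end Fermat.Agent.X0
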