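import Mathlib
import Fermat.Prelude.Def_AlgebraicCurve_CanonicalDivisor
import Fermat.Agent.X0.Defs
import Fermat.Agent.X0.Alg.Dict
import Fermat.Agent.X0.Alg.PlaceBasic
import Fermat.Agent.X0.Alg.EssFT
import Fermat.Agent.X0.Alg.KaehlerFF

/-!
# X-ALG (A2b): the affine Dedekind model of a function field, (FT) and (RES) for every place

For `x : F` transcendental over `K` with `F` finite over `K(x)` (characteristic `0`),
`algModel K x := integralClosure K[x] F` is a Dedekind domain with fraction field `F`, of finite
type over `K`, contained in the valuation ring of every place `v` with `x ∈ O_v`.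

Consequences, for every place `v` of a function field with a separating variable over an
algebraically closed field of characteristic zero:

* (FT) `Place.exists_finset_adjoin` : `O_v` is essentially of finite type over `K`;
* (RES) `Place.exists_adicValuation_sub_lt_one` : the residue field of `v` is `K`;
* `Place.algebraMap_residueField_surjective`, `Place.alg_deg_eq_one`.
-/

set_option autoImplicit false

open AlgebraicCurve IsDedekindDomain IntermediateField

namespace Fermat.Agent.X0

variable {K F : Type*} [Field K] [Field F] [Algebra K F]

/-- The standard affine model attached to `x`: the integral closure of `K[x]` in `F`. -/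
abbrev algModel (K : Type*) {F : Type*} [Field K] [Field F] [Algebra K F] (x : F) :
    Subalgebra (Algebra.adjoin K {x}) F :=
  integralClosure (Algebra.adjoin K {x}) F

section Model

variable {x : F}

theorem algModel_base_isPrincipalIdealRing (hx : Transcendental K x) :
    IsPrincipalIdealRing (Algebra.adjoin K {x}) :=
  IsPrincipalIdealRing.of_surjective
    (Polynomial.algEquivOfTranscendental K x hx : Polynomial K →+* Algebra.adjoin K {x})
    (Polynomial.algEquivOfTranscendental K x hx).surjective

open scoped algebraAdjoinAdjoin

theorem algModel_isFractionRing [CharZero K] [FiniteDimensional K⟮x⟯ F] :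
    IsFractionRing (algModel K x) F := by
  have : IsScalarTower (Algebra.adjoin K {x}) K⟮x⟯ F :=
    IsScalarTower.of_algebraMap_eq (fun _ => rfl)
  exact IsIntegralClosure.isFractionRing_of_finite_extension (Algebra.adjoin K {x}) K⟮x⟯ F
    (algModel K x)

variable [CharZero K]

theorem algModel_isDedekindDomain (hx : Transcendental K x) [FiniteDimensional K⟮x⟯ F] :
    IsDedekindDomain (algModel K x) := by
  have := algModel_base_isPrincipalIdealRing hx
  have : IsScalarTower (Algebra.adjoin K {x}) K⟮x⟯ F :=
    IsScalarTower.of_algebraMap_eq (fun _ => rfl)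
  exact integralClosure.isDedekindDomain (Algebra.adjoin K {x}) K⟮x⟯ F

theorem algModel_finite (hx : Transcendental K x) [FiniteDimensional K⟮x⟯ F] :
    Module.Finite (Algebra.adjoin K {x}) (algModel K x) := by
  have := algModel_base_isPrincipalIdealRing hx
  have : IsScalarTower (Algebra.adjoin K {x}) K⟮x⟯ F :=
    IsScalarTower.of_algebraMap_eq (fun _ => rfl)
  exact IsIntegralClosure.finite (Algebra.adjoin K {x}) K⟮x⟯ F (algModel K x)

theorem algModel_finiteType (hx : Transcendental K x) [FiniteDimensional K⟮x⟯ F] :
    Algebra.FiniteType K (algModel K x) := by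
  have h1 : Module.Finite (Algebra.adjoin K {x}) (algModel K x) := algModel_finite hx
  have h2 : Algebra.FiniteType K (Algebra.adjoin K {x}) :=
    Algebra.FiniteType.adjoin_of_finite (Set.finite_singleton x)
  have h3 : Algebra.FiniteType (Algebra.adjoin K {x}) (algModel K x) := inferInstance
  exact Algebra.FiniteType.trans h2 h3

end Model

/-- An element of `F` integral over `K[x]` lies in every valuation ring of a place containing
`x`. -/
theorem Place.mem_of_isIntegral_adjoin (v : Place K F) {x : F} (hxv : x ∈ v.toValuationSubring)
    {r : F} (hr : IsIntegral (Algebra.adjoin K {x}) r) : r ∈ v.toValuationSubring := by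
  let Ov : Subalgebra K F :=
    { v.toValuationSubring.toSubring with algebraMap_mem' := v.algebraMap_mem' }
  have hle : Algebra.adjoin K {x} ≤ Ov := Algebra.adjoin_le (by
    intro y hy
    rw [Set.mem_singleton_iff] at hy
    rw [hy]
    exact hxv)
  let φ : Algebra.adjoin K {x} →+* v.toValuationSubring :=
    { toFun := fun a => ⟨a.1, hle a.2⟩
      map_one' := rfl
      map_mul' := fun _ _ => rfl
      map_zero' := rfl
      map_add' := fun _ _ => rfl }
  have h1 : IsIntegral v.toValuationSubring ((RingHom.id F) r) :=
    IsIntegral.map_of_comp_eq φ (RingHom.id F) (by ext a; rfl) hr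
  obtain ⟨y, hy⟩ := IsIntegrallyClosed.isIntegral_iff.mp h1
  rw [RingHom.id_apply] at hy
  rw [← hy]
  exact y.2

/-- The affine model of `x` is contained in the valuation ring of every place containing `x`. -/
theorem Place.algModel_le (v : Place K F) {x : F} (hxv : x ∈ v.toValuationSubring)
    (r : algModel K x) : algebraMap (algModel K x) F r ∈ v.toValuationSubring :=
  Place.mem_of_isIntegral_adjoin v hxv r.2

section AnyPlace

variable [CharZero K] {x : F} {n : ℕ}

omit [CharZero K] in
/-- Every place contains `y = x` or `y = x⁻¹`, which is again a separating variable. -/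
theorem Place.exists_sepVar_mem (hx : IsSepVar K x n) (v : Place K F) :
    ∃ y : F, Transcendental K y ∧ FiniteDimensional K⟮y⟯ F ∧ y ∈ v.toValuationSubring := by
  have := hx.finite
  rcases v.toValuationSubring.mem_or_inv_mem x with h | h
  · exact ⟨x, hx.transcendental, hx.finite, h⟩
  · have ht : Transcendental K x⁻¹ := by
      intro halg
      apply hx.transcendental
      have := halg.inv
      rwa [inv_inv] at this
    exact ⟨x⁻¹, ht, alg_finiteDimensional_adjoin_simple (x := x) ht, h⟩

/-- (FT) `O_v` is essentially of finite type over `K`, for every place `v`. -/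
theorem Place.exists_finset_adjoin (hx : IsSepVar K x n) (v : Place K F) :
    ∃ T : Finset F, (∀ τ ∈ T, τ ∈ v.toValuationSubring) ∧ ∀ u ∈ v.toValuationSubring,
      ∃ r s : F, r ∈ Algebra.adjoin K (T : Set F) ∧ s ∈ Algebra.adjoin K (T : Set F) ∧
        v.adicValuation s = 1 ∧ u = r / s := by
  obtain ⟨y, hy, hfin, hyv⟩ := Place.exists_sepVar_mem hx v
  have := algModel_isDedekindDomain hy
  have := algModel_isFractionRing (K := K) (x := y)
  have := algModel_finiteType hy
  exact Place.exists_finset_adjoin_of_model (R := algModel K y) v (Place.algModel_le v hyv)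

variable [IsAlgClosed K]

/-- (RES) the residue field of every place is `K`. -/
theorem Place.exists_adicValuation_sub_lt_one (hx : IsSepVar K x n) (v : Place K F) {u : F}
    (hu : u ∈ v.toValuationSubring) :
    ∃ c : K, v.adicValuation (u - algebraMap K F c) < 1 := by
  obtain ⟨y, hy, hfin, hyv⟩ := Place.exists_sepVar_mem hx v
  have := algModel_isDedekindDomain hy
  have := algModel_isFractionRing (K := K) (x := y)
  have := algModel_finiteType hy
  exact Place.exists_adicValuation_sub_lt_one_of_model (R := algModel K y) v
    (Place.algModel_le v hyv) hu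

/-- The residue field of every place is `K`: surjectivity of `K → k_v`. -/
theorem Place.algebraMap_residueField_surjective (hx : IsSepVar K x n) (v : Place K F) :
    Function.Surjective (algebraMap K v.ResidueField) := by
  intro ū
  obtain ⟨u, rfl⟩ := IsLocalRing.residue_surjective ū
  obtain ⟨c, hc⟩ := Place.exists_adicValuation_sub_lt_one hx v u.2
  refine ⟨c, ?_⟩
  have h1 : u - algebraMap K v.toValuationSubring c ∈
      IsLocalRing.maximalIdeal v.toValuationSubring := by
    have h2 : v.adicValuation ((u - algebraMap K v.toValuationSubring c : v.toValuationSubring) : F)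
        < 1 := hc
    rw [v.adicValuation_coe, HeightOneSpectrum.intValuation_lt_one_iff_mem] at h2
    exact h2
  have h3 : IsLocalRing.residue v.toValuationSubring (u - algebraMap K v.toValuationSubring c)
      = 0 := (IsLocalRing.residue_eq_zero_iff _).mpr h1
  rw [map_sub, sub_eq_zero] at h3
  rw [h3]
  rfl

/-- Every place has degree one. -/
theorem Place.alg_deg_eq_one (hx : IsSepVar K x n) (v : Place K F) : v.deg = 1 := by
  rw [Place.deg]
  rw [finrank_eq_one_iff_of_nonzero' (1 : v.ResidueField) one_ne_zero]
  intro w
  obtain ⟨c, rfl⟩ := Place.algebraMap_residueField_surjective hx v w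
  exact ⟨c, by rw [Algebra.smul_def, mul_one]⟩

end AnyPlace

end Fermat.Agent.X0
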