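import Mathlib
import Fermat.Agent.X0.Defs
import Fermat.Agent.X0.Alg.Coord
import Fermat.Agent.X0.Alg.SepVarBasic

/-!
# X-ALG (A2): places over a value of a separating variable

Exact Skeleton statements `finite_placesOver`, `sum_ord_placesOver`, `finite_placesOverInfty`,
`sum_ord_placesOverInfty`.  (`isSepVar_inv`, `isSepVar_sub_const` are in `SepVarBasic.lean`.)
-/

set_option autoImplicit false

open AlgebraicCurve IsDedekindDomain WithZero Polynomial FunctionField IntermediateField

namespace Fermat.Agent.X0

variable {K F : Type*} [Field K] [Field F] [Algebra K F]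

/-! ### Places over a finite value -/

variable [IsAlgClosed K] [CharZero K]

/-- (ALG-FIN) finitely many places over a value. -/
theorem finite_placesOver {x : F} {n : ℕ} (hx : IsSepVar K x n) (a : K) :
    (placesOver x a).Finite := by
  letI := algPoly K x
  letI := algRat hx.transcendental
  haveI := isScalarTower_poly_rat hx.transcendental
  haveI := isScalarTower_base_poly (K := K) x
  haveI := hx.finite
  haveI := functionField_of_finite hx.transcendental
  haveI := isSeparable_ratFunc hx.transcendental
  have h := finite_placesOver_core (K := K) (F := F) a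
  rwa [coordX_eq] at h

/-- (ALG-FUND) fundamental identity `∑ e = n` over a finite value. -/
theorem sum_ord_placesOver {x : F} {n : ℕ} (hx : IsSepVar K x n) (a : K) :
    ∑ v ∈ (finite_placesOver hx a).toFinset, v.ord (x - algebraMap K F a) = n := by
  letI := algPoly K x
  letI := algRat hx.transcendental
  haveI := isScalarTower_poly_rat hx.transcendental
  haveI := isScalarTower_base_poly (K := K) x
  haveI := hx.finite
  haveI := functionField_of_finite hx.transcendental
  haveI := isSeparable_ratFunc hx.transcendental
  have h := sum_ord_placesOver_core (K := K) (F := F) a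
  rw [finrank_ratFunc_eq hx.transcendental, hx.finrank_eq] at h
  rw [← h]
  have hx' : coordX K F = x := coordX_eq x
  refine Finset.sum_congr ?_ fun v _ => ?_
  · ext v
    simp only [Set.Finite.mem_toFinset]
    rw [hx']
  · rw [hx']

/-! ### Poles -/

theorem finite_placesOverInfty {x : F} {n : ℕ} (hx : IsSepVar K x n) :
    (placesOverInfty K x).Finite := by
  rw [placesOverInfty_eq_placesOver_inv_zero]
  exact finite_placesOver (isSepVar_inv hx) 0

theorem sum_ord_placesOverInfty {x : F} {n : ℕ} (hx : IsSepVar K x n) :
    ∑ v ∈ (finite_placesOverInfty hx).toFinset, -v.ord x = n := by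
  rw [← sum_ord_placesOver (isSepVar_inv hx) 0]
  refine Finset.sum_congr ?_ fun v _ => ?_
  · ext v
    simp only [Set.Finite.mem_toFinset]
    rw [placesOverInfty_eq_placesOver_inv_zero]
  · rw [map_zero, sub_zero, v.ord_inv]

end Fermat.Agent.X0
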