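import Mathlib
import Fermat.Agent.X0.Defs
import Fermat.Agent.X0.Alg.SepVarChange

/-!
# X-ALG (A3, part 2): principal divisors have finite support and degree zero (core)

`K` algebraically closed, `F/K` a function field in one variable (`x` a separating variable).
The fundamental identity (A2) enters as the hypothesis `FundId K F`: for every separating
variable `y` of degree `m`, the zeros and the poles of `y` are finite in number and their
multiplicities add up to `m`. Under `FundId K F` and for `g ≠ 0` in `F`:

* `finite_ord_support_of` : `{v | v.ord g ≠ 0}` is finite;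
* `sum_ord_eq_zero_of` : `∑ v ∈ s, v.ord g = 0` for every finset `s` containing the support;
* `exists_principal_divisor_of` : if moreover every place has degree one, there is a divisor `G`
  with `G v = v.ord g` for all `v` and `Divisor.degree G = 0`.

Route: a nonconstant `g` is itself a separating variable (`isSepVar_of_transcendental`), so the
fundamental identity at the values `0` and `∞` of `g` gives `#zeros = #poles = [F : K(g)]`.
-/

set_option autoImplicit false

namespace Fermat.Agent.X0

open AlgebraicCurve IntermediateField

section Core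

variable (K F : Type*) [Field K] [Field F] [Algebra K F]

/-- The fundamental identity at `0` and `∞` for every separating variable of `F/K`
(the output of X-ALG A2, as a hypothesis). -/
def FundId : Prop :=
  ∀ (y : F) (m : ℕ), IsSepVar K y m →
    ∃ (h0 : (placesOver y (0 : K)).Finite) (hinf : (placesOverInfty K y).Finite),
      ∑ v ∈ h0.toFinset, v.ord (y - algebraMap K F 0) = m ∧ ∑ v ∈ hinf.toFinset, -v.ord y = m

variable {K F}
variable [IsAlgClosed K]

open PrincipalDeg

/-- Zeros and poles of a nonzero function: finite support. -/
theorem finite_ord_support_of (hA2 : FundId K F) {x : F} {n : ℕ} (hx : IsSepVar K x n) (g : F) :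
    {v : Place K F | v.ord g ≠ 0}.Finite := by
  by_cases halg : IsAlgebraic K g
  · obtain ⟨c, rfl⟩ := exists_algebraMap_eq_of_isAlgebraic halg
    convert Set.finite_empty
    ext v
    simp [ord_algebraMap_eq_zero]
  · have hg' := isSepVar_of_transcendental hx (f := g) halg
    obtain ⟨h0, hinf, -, -⟩ := hA2 g _ hg'
    refine (h0.union hinf).subset ?_
    intro v hv
    rcases lt_or_gt_of_ne hv with h | h
    · exact Or.inr h
    · left
      rw [mem_placesOver, map_zero, sub_zero]
      exact h

/-- `∑ v ord_v g = 0`, the sum over any finite set of places containing all zeros and poles. -/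
theorem sum_ord_eq_zero_of (hA2 : FundId K F) {x : F} {n : ℕ} (hx : IsSepVar K x n) (g : F)
    (s : Finset (Place K F)) (hs : ∀ v : Place K F, v.ord g ≠ 0 → v ∈ s) :
    ∑ v ∈ s, v.ord g = 0 := by
  classical
  by_cases halg : IsAlgebraic K g
  · obtain ⟨c, rfl⟩ := exists_algebraMap_eq_of_isAlgebraic halg
    exact Finset.sum_eq_zero fun v _ => ord_algebraMap_eq_zero v c
  · have hg' := isSepVar_of_transcendental hx (f := g) halg
    obtain ⟨h0, hinf, hz', hp'⟩ := hA2 g _ hg'
    set Z := h0.toFinset with hZ
    set P := hinf.toFinset with hP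
    have hmemZ : ∀ v, v ∈ Z ↔ 0 < v.ord g := by
      intro v
      rw [hZ, Set.Finite.mem_toFinset, mem_placesOver, map_zero, sub_zero]
    have hmemP : ∀ v, v ∈ P ↔ v.ord g < 0 := by
      intro v
      rw [hP, Set.Finite.mem_toFinset, mem_placesOverInfty]
    have hdisj : Disjoint Z P := by
      rw [Finset.disjoint_left]
      intro v h1 h2
      rw [hmemZ] at h1
      rw [hmemP] at h2
      omega
    have hsub : Z ∪ P ⊆ s := by
      intro v hv
      apply hs
      rcases Finset.mem_union.mp hv with h | h
      · rw [hmemZ] at h; omega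
      · rw [hmemP] at h; omega
    have h0' : ∑ v ∈ s, v.ord g = ∑ v ∈ Z ∪ P, v.ord g := by
      symm
      apply Finset.sum_subset hsub
      intro v _ hv
      by_contra hne
      apply hv
      rcases lt_or_gt_of_ne hne with h | h
      · exact Finset.mem_union_right _ ((hmemP v).mpr h)
      · exact Finset.mem_union_left _ ((hmemZ v).mpr h)
    have hz : ∑ v ∈ Z, v.ord g = (Module.finrank K⟮g⟯ F : ℤ) := by
      rwa [map_zero, sub_zero] at hz'
    have hp : ∑ v ∈ P, v.ord g = -(Module.finrank K⟮g⟯ F : ℤ) := by
      rw [Finset.sum_neg_distrib] at hp'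
      rw [← hp', neg_neg]
    rw [h0', Finset.sum_union hdisj, hz, hp, add_neg_cancel]

/-- The principal divisor of `g ≠ 0` exists and has degree zero. -/
theorem exists_principal_divisor_of (hA2 : FundId K F) (hdeg : ∀ v : Place K F, v.deg = 1)
    {x : F} {n : ℕ} (hx : IsSepVar K x n) (g : F) :
    ∃ G : Divisor K F, (∀ v, G v = v.ord g) ∧ Divisor.degree G = 0 := by
  classical
  have hfin := finite_ord_support_of hA2 hx g
  refine ⟨Finsupp.ofSupportFinite (fun v => v.ord g) hfin, fun v => rfl, ?_⟩
  have hdegree : ∀ G : Divisor K F, Divisor.degree G = ∑ v ∈ G.support, G v := by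
    intro G
    show Finsupp.liftAddHom (fun v : Place K F => AddMonoidHom.mulRight ((v.deg : ℕ) : ℤ)) G = _
    rw [Finsupp.liftAddHom_apply, Finsupp.sum]
    refine Finset.sum_congr rfl fun v _ => ?_
    rw [AddMonoidHom.mulRight_apply, hdeg v, Nat.cast_one, mul_one]
  rw [hdegree]
  refine sum_ord_eq_zero_of hA2 hx g _ fun v hv => ?_
  rw [Finsupp.mem_support_iff]
  exact hv

/-- `HasPrincipalDivisors K F` from the fundamental identity. -/
theorem hasPrincipalDivisors_of (hA2 : FundId K F) (hdeg : ∀ v : Place K F, v.deg = 1)
    {x : F} {n : ℕ} (hx : IsSepVar K x n) : HasPrincipalDivisors K F :=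
  ⟨fun g _ => exists_principal_divisor_of hA2 hdeg hx g⟩

end Core

end Fermat.Agent.X0
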