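import Mathlib
import Fermat.Prelude.Def_AlgebraicCurve_CanonicalDivisor
import Fermat.Agent.X0.Defs
import Fermat.Agent.X0.Alg.PlaceBasic

/-!
# X-ALG: consequences of (RES) (residue field `= K`) at a place

* `Place.deg_eq_one_of_res` : `v.deg = 1`;
* `Place.exists_ord_sub_pos_of_res` : a function regular at `v` and not constant takes a value
  `a : K` at `v`.
-/

set_option autoImplicit false

open AlgebraicCurve IsDedekindDomain WithZero

namespace Fermat.Agent.X0

variable {K F : Type*} [Field K] [Field F] [Algebra K F]

theorem Place.algebraMap_residueField_surjective_of_res (v : Place K F)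
    (hRES : ∀ u ∈ v.toValuationSubring, ∃ c : K, v.adicValuation (u - algebraMap K F c) < 1) :
    Function.Surjective (algebraMap K v.ResidueField) := by
  intro y
  obtain ⟨u, rfl⟩ := IsLocalRing.residue_surjective y
  obtain ⟨c, hc⟩ := hRES u u.2
  refine ⟨c, ?_⟩
  have hmem : u - algebraMap K v.toValuationSubring c ∈
      IsLocalRing.maximalIdeal v.toValuationSubring := by
    rw [IsLocalRing.mem_maximalIdeal, mem_nonunits_iff]
    intro hunit
    have h1 := (v.adicValuation_coe_eq_one_iff _).mpr hunit
    have h2 : ((u - algebraMap K v.toValuationSubring c : v.toValuationSubring) : F)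
        = (u : F) - algebraMap K F c := rfl
    rw [h2] at h1
    rw [h1] at hc
    exact lt_irrefl _ hc
  have h3 : IsLocalRing.residue v.toValuationSubring (u - algebraMap K v.toValuationSubring c)
      = 0 := (IsLocalRing.residue_eq_zero_iff _).mpr hmem
  rw [map_sub, sub_eq_zero] at h3
  rw [h3]
  rfl

theorem Place.deg_eq_one_of_res (v : Place K F)
    (hRES : ∀ u ∈ v.toValuationSubring, ∃ c : K, v.adicValuation (u - algebraMap K F c) < 1) :
    v.deg = 1 := by
  have hbij : Function.Bijective (algebraMap K v.ResidueField) :=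
    ⟨(algebraMap K v.ResidueField).injective,
      Place.algebraMap_residueField_surjective_of_res v hRES⟩
  have e : K ≃ₗ[K] v.ResidueField :=
    LinearEquiv.ofBijective (Algebra.linearMap K v.ResidueField) hbij
  rw [Place.deg, ← e.finrank_eq, Module.finrank_self]

theorem Place.exists_ord_sub_pos_of_res (v : Place K F)
    (hRES : ∀ u ∈ v.toValuationSubring, ∃ c : K, v.adicValuation (u - algebraMap K F c) < 1)
    {x : F} (hx : ∀ c : K, x ≠ algebraMap K F c) (hv : 0 ≤ v.ord x) :
    ∃ a : K, 0 < v.ord (x - algebraMap K F a) := by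
  obtain ⟨a, ha⟩ := hRES x (Place.mem_of_ord_nonneg v hv)
  refine ⟨a, ?_⟩
  have h0 : x - algebraMap K F a ≠ 0 := sub_ne_zero.mpr (hx a)
  rw [Place.adicValuation_eq_exp_neg_ord v h0, ← exp_zero, exp_lt_exp] at ha
  omega

end Fermat.Agent.X0
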