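import Mathlib
import Fermat.Prelude.Def_AlgebraicCurve_CanonicalDivisor
import Fermat.Agent.X0.Defs
import Fermat.Agent.X0.Alg.PlaceBasic

/-!
# X-ALG (A5): order of `δ f / δ t` at a place, stability of `O_v` under `δ / δ t`

`K` a field of characteristic `0`, `F/K` a field extension, `v : Place K F`, `δ` a nonzero
`K`-derivation of `F`.  Under the two hypotheses

* (RES) the residue field of `v` is `K`;
* (FT) `O_v` is essentially of finite type over `K`,

we prove, for every `t` with `v.ord t = 1`: `δ t ≠ 0`, `δ u / δ t ∈ O_v` for `u ∈ O_v`, and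
`v.ord (δ f / δ t) = v.ord f - 1` whenever `v.ord f ≠ 0`.
-/

set_option autoImplicit false

open AlgebraicCurve IsDedekindDomain WithZero KaehlerDifferential

namespace Fermat.Agent.X0

variable {K F : Type*} [Field K] [Field F] [Algebra K F]

section PlaceBasic

variable (v : Place K F)

theorem Place.adicValuation_le_one_of_mem {f : F} (hf : f ∈ v.toValuationSubring) :
    v.adicValuation f ≤ 1 := by
  have := v.adicValuation_coe ⟨f, hf⟩
  simp only at this
  rw [this]
  exact HeightOneSpectrum.intValuation_le_one _ _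

theorem Place.mem_of_adicValuation_le_one {f : F} (hf : v.adicValuation f ≤ 1) :
    f ∈ v.toValuationSubring := by
  obtain ⟨n, d, hnd⟩ := v.heightOneSpectrum.exists_primeCompl_mul_eq_of_integer f hf
  have hd : IsUnit (d : v.toValuationSubring) := by
    have h : (d : v.toValuationSubring) ∉ v.heightOneSpectrum.asIdeal := d.2
    by_contra hnu
    exact h ((IsLocalRing.mem_maximalIdeal _).mpr hnu)
  obtain ⟨u, hu⟩ := hd
  have h1 : f * ((u : v.toValuationSubring) : F) = (n : F) := by
    rw [hu]; exact hnd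
  have hu0 : ((u : v.toValuationSubring) : F) ≠ 0 := by
    simp [ne_eq, ZeroMemClass.coe_eq_zero]
  have h2 : f = ((n * ((u⁻¹ : v.toValuationSubringˣ) : v.toValuationSubring) :
      v.toValuationSubring) : F) := by
    have h3 : (((u : v.toValuationSubring) * ((u⁻¹ : v.toValuationSubringˣ) :
        v.toValuationSubring) : v.toValuationSubring) : F) = 1 := by
      rw [Units.mul_inv]; rfl
    push_cast at h3 ⊢
    rw [← h1, mul_assoc, h3, mul_one]
  rw [h2]
  exact Subtype.mem _

theorem Place.mem_iff_adicValuation_le_one {f : F} :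
    f ∈ v.toValuationSubring ↔ v.adicValuation f ≤ 1 :=
  ⟨Place.adicValuation_le_one_of_mem v, Place.mem_of_adicValuation_le_one v⟩

theorem Place.adicValuation_algebraMap {c : K} (hc : c ≠ 0) :
    v.adicValuation (algebraMap K F c) = 1 := by
  apply le_antisymm (Place.adicValuation_le_one_of_mem v (v.algebraMap_mem' c))
  have h1 := Place.adicValuation_le_one_of_mem v (v.algebraMap_mem' c⁻¹)
  rw [map_inv₀, map_inv₀] at h1
  have h0 : v.adicValuation (algebraMap K F c) ≠ 0 :=
    v.adicValuation_ne_zero (by simpa using hc)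
  exact (inv_le_one₀ (zero_lt_iff.mpr h0)).mp h1

theorem Place.exists_ord_eq_one : ∃ t : F, v.ord t = 1 := by
  obtain ⟨π, hπ⟩ := IsDiscreteValuationRing.exists_irreducible v.toValuationSubring
  exact ⟨π, v.ord_coe_irreducible hπ⟩

theorem Place.exists_dCoord_eq : ∃ t : F, v.ord t = 1 ∧ v.dCoord = D K F t := by
  refine ⟨_, ?_, rfl⟩
  exact v.ord_coe_irreducible
    (IsDiscreteValuationRing.exists_irreducible v.toValuationSubring).choose_spec

end PlaceBasic

section Derivation

variable (v : Place K F) (δ : Derivation K F F)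

/-- (BOUND) a uniform bound for `val (δ u)`, `u ∈ O_v`, when `O_v` is essentially of finite type. -/
theorem Place.exists_adicValuation_derivation_le
    (hFT : ∃ T : Finset F, (∀ τ ∈ T, τ ∈ v.toValuationSubring) ∧
      ∀ u ∈ v.toValuationSubring, ∃ r s : F, r ∈ Algebra.adjoin K (T : Set F) ∧
        s ∈ Algebra.adjoin K (T : Set F) ∧ v.adicValuation s = 1 ∧ u = r / s) :
    ∃ B : ℤᵐ⁰, B ≠ 0 ∧ ∀ u ∈ v.toValuationSubring, v.adicValuation (δ u) ≤ B := by
  classical
  obtain ⟨T, hT, hfrac⟩ := hFT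
  set B : ℤᵐ⁰ := max 1 (T.sup fun τ => v.adicValuation (δ τ)) with hB
  have hB1 : (1 : ℤᵐ⁰) ≤ B := le_max_left _ _
  have hB0 : B ≠ 0 := fun h => by rw [h] at hB1; exact absurd hB1 (by simp)
  have key : ∀ r ∈ Algebra.adjoin K (T : Set F),
      v.adicValuation r ≤ 1 ∧ v.adicValuation (δ r) ≤ B := by
    intro r hr
    induction hr using Algebra.adjoin_induction with
    | mem τ hτ =>
      refine ⟨Place.adicValuation_le_one_of_mem v (hT τ hτ), le_trans ?_ (le_max_right _ _)⟩
      exact Finset.le_sup (f := fun τ => v.adicValuation (δ τ)) hτ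
    | algebraMap c =>
      refine ⟨Place.adicValuation_le_one_of_mem v (v.algebraMap_mem' c), ?_⟩
      rw [Derivation.map_algebraMap, map_zero]
      exact zero_le
    | add a b _ _ iha ihb =>
      refine ⟨Valuation.map_add_le _ iha.1 ihb.1, ?_⟩
      rw [map_add]
      exact Valuation.map_add_le _ iha.2 ihb.2
    | mul a b _ _ iha ihb =>
      refine ⟨by rw [map_mul]; exact mul_le_one' iha.1 ihb.1, ?_⟩
      rw [Derivation.leibniz]
      apply Valuation.map_add_le
      · rw [smul_eq_mul, map_mul]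
        calc v.adicValuation a * v.adicValuation (δ b) ≤ 1 * B := mul_le_mul' iha.1 ihb.2
          _ = B := one_mul B
      · rw [smul_eq_mul, map_mul]
        calc v.adicValuation b * v.adicValuation (δ a) ≤ 1 * B := mul_le_mul' ihb.1 iha.2
          _ = B := one_mul B
  refine ⟨B, hB0, fun u hu => ?_⟩
  obtain ⟨r, s, hr, hs, hs1, rfl⟩ := hfrac u hu
  rw [Derivation.leibniz_div, smul_eq_mul, map_mul, map_pow, map_inv₀, hs1, inv_one, one_pow,
    one_mul]
  apply Valuation.map_sub_le
  · rw [smul_eq_mul, map_mul, hs1, one_mul]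
    exact (key r hr).2
  · rw [smul_eq_mul, map_mul]
    calc v.adicValuation r * v.adicValuation (δ s) ≤ 1 * B := mul_le_mul' (key r hr).1 (key s hs).2
      _ = B := one_mul B

/-- Rank-one Nakayama by hand: `δ t` generates `δ(O_v)` for every uniformizer `t`. -/
theorem Place.derivation_stable
    (hRES : ∀ u ∈ v.toValuationSubring, ∃ c : K, v.adicValuation (u - algebraMap K F c) < 1)
    (hB : ∃ B : ℤᵐ⁰, B ≠ 0 ∧ ∀ u ∈ v.toValuationSubring, v.adicValuation (δ u) ≤ B)
    (hδ : ∃ y : F, δ y ≠ 0) {t : F} (ht : v.ord t = 1) :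
    δ t ≠ 0 ∧ ∀ u ∈ v.toValuationSubring, δ u / δ t ∈ v.toValuationSubring := by
  obtain ⟨B, hB0, hBd⟩ := hB
  have ht0 : t ≠ 0 := by
    rintro rfl
    simp at ht
  have hvt : v.adicValuation t = exp (-1 : ℤ) := by
    rw [Place.adicValuation_eq_exp_neg_ord v ht0, ht]
  -- Step 1: some `u₁ ∈ O_v` has `δ u₁ ≠ 0`.
  obtain ⟨u₁, hu₁, hδu₁⟩ : ∃ u₁ ∈ v.toValuationSubring, δ u₁ ≠ 0 := by
    obtain ⟨y, hy⟩ := hδ
    rcases v.toValuationSubring.mem_or_inv_mem y with h | h
    · exact ⟨y, h, hy⟩
    · refine ⟨y⁻¹, h, ?_⟩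
      have hy0 : y ≠ 0 := by
        rintro rfl
        exact hy (map_zero _)
      rw [Derivation.leibniz_inv, smul_eq_mul]
      exact mul_ne_zero (neg_ne_zero.mpr (pow_ne_zero _ (inv_ne_zero hy0))) hy
  -- Step 2: the maximum of `val (δ u)`.
  obtain ⟨m₀, ⟨u₀, hu₀, hδu₀, hm₀⟩, hmax⟩ := Int.exists_greatest_of_bdd
    (P := fun m : ℤ => ∃ u ∈ v.toValuationSubring, δ u ≠ 0 ∧ v.adicValuation (δ u) = exp m)
    ⟨log B, by
      rintro z ⟨u, hu, hδu, hz⟩
      have := hBd u hu
      rw [hz] at this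
      rwa [← exp_log hB0, exp_le_exp] at this⟩
    ⟨log (v.adicValuation (δ u₁)), u₁, hu₁, hδu₁,
      (exp_log (v.adicValuation_ne_zero hδu₁)).symm⟩
  have hle : ∀ u ∈ v.toValuationSubring, v.adicValuation (δ u) ≤ exp m₀ := by
    intro u hu
    rcases eq_or_ne (δ u) 0 with h | h
    · rw [h, map_zero]; exact zero_le
    · have := hmax (log (v.adicValuation (δ u)))
        ⟨u, hu, h, (exp_log (v.adicValuation_ne_zero h)).symm⟩
      rw [← exp_log (v.adicValuation_ne_zero h), exp_le_exp]
      exact this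
  -- Step 3: write `u₀ = c + t w`.
  obtain ⟨c, hc⟩ := hRES u₀ hu₀
  set w : F := (u₀ - algebraMap K F c) / t with hw
  have hwmem : w ∈ v.toValuationSubring := by
    rw [Place.mem_iff_adicValuation_le_one, hw, map_div₀, hvt]
    rcases eq_or_ne (u₀ - algebraMap K F c) 0 with h | h
    · rw [h, map_zero, zero_div]; exact zero_le
    · rw [Place.adicValuation_eq_exp_neg_ord v h] at hc ⊢
      rw [← exp_zero, exp_lt_exp] at hc
      rw [← exp_sub, ← exp_zero, exp_le_exp]
      omega
  have hu₀eq : u₀ = algebraMap K F c + t * w := by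
    rw [hw]; field_simp; ring
  have hδu₀eq : δ u₀ = t * δ w + w * δ t := by
    conv_lhs => rw [hu₀eq]
    rw [map_add, Derivation.map_algebraMap, zero_add, Derivation.leibniz, smul_eq_mul, smul_eq_mul]
  have h1 : v.adicValuation (t * δ w) < exp m₀ := by
    rw [map_mul, hvt]
    calc exp (-1 : ℤ) * v.adicValuation (δ w) ≤ exp (-1 : ℤ) * exp m₀ :=
          mul_le_mul' le_rfl (hle w hwmem)
      _ = exp (-1 + m₀) := (exp_add _ _).symm
      _ < exp m₀ := by rw [exp_lt_exp]; omega
  have hδt : v.adicValuation (δ t) = exp m₀ := by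
    have htmem : t ∈ v.toValuationSubring := by
      rw [Place.mem_iff_adicValuation_le_one, hvt, ← exp_zero, exp_le_exp]; omega
    apply le_antisymm (hle t htmem)
    by_contra hlt
    rw [not_le] at hlt
    have h2 : v.adicValuation (w * δ t) < exp m₀ := by
      rw [map_mul]
      calc v.adicValuation w * v.adicValuation (δ t) ≤ 1 * v.adicValuation (δ t) :=
            mul_le_mul' (Place.adicValuation_le_one_of_mem v hwmem) le_rfl
        _ = v.adicValuation (δ t) := one_mul _
        _ < exp m₀ := hlt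
    have h3 := Valuation.map_add_lt _ h1 h2
    rw [← hδu₀eq, hm₀] at h3
    exact lt_irrefl _ h3
  have hδt0 : δ t ≠ 0 := by
    intro h
    rw [h, map_zero] at hδt
    exact exp_ne_zero hδt.symm
  refine ⟨hδt0, fun u hu => ?_⟩
  rw [Place.mem_iff_adicValuation_le_one, map_div₀, hδt]
  exact div_le_one_of_le₀ (hle u hu) zero_le

/-- The order of `δ f / δ t` (valuation form): tame ramification in characteristic `0`. -/
theorem Place.adicValuation_derivation_div [CharZero K] {t : F} (ht : v.ord t = 1)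
    (hstab : δ t ≠ 0 ∧ ∀ u ∈ v.toValuationSubring, δ u / δ t ∈ v.toValuationSubring)
    {f : F} (hf : v.ord f ≠ 0) :
    v.adicValuation (δ f / δ t) = exp (-(v.ord f - 1)) := by
  obtain ⟨hδt, hst⟩ := hstab
  have hf0 : f ≠ 0 := by
    rintro rfl
    simp at hf
  have ht0 : t ≠ 0 := by
    rintro rfl
    simp at ht
  have hvt : v.adicValuation t = exp (-1 : ℤ) := by
    rw [Place.adicValuation_eq_exp_neg_ord v ht0, ht]
  set e : ℤ := v.ord f with he
  set u : F := f / t ^ e with hu
  have hte0 : t ^ e ≠ 0 := zpow_ne_zero _ ht0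
  have hvu : v.adicValuation u = 1 := by
    rw [hu, map_div₀, map_zpow₀, hvt, Place.adicValuation_eq_exp_neg_ord v hf0, ← he,
      ← exp_zsmul, smul_eq_mul, mul_neg_one]
    exact div_self exp_ne_zero
  have humem : u ∈ v.toValuationSubring := by
    rw [Place.mem_iff_adicValuation_le_one, hvu]
  have hfeq : f = u * t ^ e := by
    rw [hu, div_mul_cancel₀ _ hte0]
  have hδf : δ f / δ t = t ^ (e - 1) * ((e : F) * u + t * (δ u / δ t)) := by
    conv_lhs => rw [hfeq]
    rw [Derivation.leibniz, Derivation.leibniz_zpow, smul_eq_mul, smul_eq_mul, zsmul_eq_mul,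
      smul_eq_mul]
    have : t ^ e = t ^ (e - 1) * t := by
      rw [← zpow_add_one₀ ht0, sub_add_cancel]
    rw [this]
    field_simp
  have hve : v.adicValuation ((e : F) * u) = 1 := by
    rw [map_mul, hvu, mul_one]
    have : (e : F) = algebraMap K F (e : K) := by simp
    rw [this]
    exact Place.adicValuation_algebraMap v (by exact_mod_cast hf)
  have hvt2 : v.adicValuation (t * (δ u / δ t)) < 1 := by
    rw [map_mul, hvt]
    calc exp (-1 : ℤ) * v.adicValuation (δ u / δ t) ≤ exp (-1 : ℤ) * 1 :=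
          mul_le_mul' le_rfl (Place.adicValuation_le_one_of_mem v (hst u humem))
      _ = exp (-1 : ℤ) := mul_one _
      _ < 1 := by rw [← exp_zero, exp_lt_exp]; omega
  rw [hδf, map_mul, Valuation.map_add_eq_of_lt_left _ (by rw [hve]; exact hvt2), hve, mul_one,
    map_zpow₀, hvt, ← exp_zsmul, smul_eq_mul]
  congr 1
  ring

theorem Place.derivation_div_ne_zero [CharZero K] {t : F} (ht : v.ord t = 1)
    (hstab : δ t ≠ 0 ∧ ∀ u ∈ v.toValuationSubring, δ u / δ t ∈ v.toValuationSubring)
    {f : F} (hf : v.ord f ≠ 0) : δ f / δ t ≠ 0 := by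
  intro h
  have := Place.adicValuation_derivation_div v δ ht hstab hf
  rw [h, map_zero] at this
  exact exp_ne_zero this.symm

/-- The order of `δ f / δ t`: tame ramification in characteristic `0`. -/
theorem Place.ord_derivation_div [CharZero K] {t : F} (ht : v.ord t = 1)
    (hstab : δ t ≠ 0 ∧ ∀ u ∈ v.toValuationSubring, δ u / δ t ∈ v.toValuationSubring)
    {f : F} (hf : v.ord f ≠ 0) : v.ord (δ f / δ t) = v.ord f - 1 := by
  rw [Place.ord, Place.adicValuation_derivation_div v δ ht hstab hf, log_exp, neg_neg]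

end Derivation

section Kaehler

variable (v : Place K F) {x : F} (δ : Derivation K F F)

theorem span_D_eq_top_of_forall_D_eq (hA4 : ∀ y : F, D K F y = δ y • D K F x) :
    Submodule.span F {D K F x} = ⊤ := by
  rw [eq_top_iff, ← KaehlerDifferential.span_range_derivation K F, Submodule.span_le]
  rintro _ ⟨y, rfl⟩
  rw [hA4 y]
  exact Submodule.smul_mem _ _ (Submodule.mem_span_singleton_self _)

theorem derivation_ne_zero_of_forall_D_eq (hA4 : ∀ y : F, D K F y = δ y • D K F x)
    (hDx : D K F x ≠ 0) : ∃ y : F, δ y ≠ 0 := by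
  refine ⟨x, fun h => hDx ?_⟩
  rw [hA4 x, h, zero_smul]

theorem D_eq_div_smul_D (hA4 : ∀ y : F, D K F y = δ y • D K F x) {t : F} (hδt : δ t ≠ 0)
    (f : F) : D K F f = (δ f / δ t) • D K F t := by
  rw [hA4 f, hA4 t, smul_smul, div_mul_cancel₀ _ hδt]

theorem Place.dCoordGenerates_of_derivation (hA4 : ∀ y : F, D K F y = δ y • D K F x)
    {t : F} (hdc : v.dCoord = D K F t) (hδt : δ t ≠ 0) : v.DCoordGenerates := by
  constructor
  rw [eq_top_iff, ← span_D_eq_top_of_forall_D_eq δ hA4, Submodule.span_le,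
    Set.singleton_subset_iff, hdc, D_eq_div_smul_D δ hA4 hδt x]
  exact Submodule.smul_mem _ _ (Submodule.mem_span_singleton_self _)

/-- Main local statement of (A5): under (RES) and (BOUND), every place satisfies
`DCoordGenerates` and `ord_v (g • d f) = ord_v g + ord_v f - 1` as soon as `ord_v f ≠ 0`. -/
theorem Place.ordDifferential_smul_D_of_bound [CharZero K]
    (hRES : ∀ u ∈ v.toValuationSubring, ∃ c : K, v.adicValuation (u - algebraMap K F c) < 1)
    (hB : ∃ B : ℤᵐ⁰, B ≠ 0 ∧ ∀ u ∈ v.toValuationSubring, v.adicValuation (δ u) ≤ B)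
    (hA4 : ∀ y : F, D K F y = δ y • D K F x) (hDx : D K F x ≠ 0) :
    v.DCoordGenerates ∧ ∀ {g f : F}, g ≠ 0 → v.ord f ≠ 0 →
      v.ordDifferential (g • D K F f) = v.ord g + v.ord f - 1 := by
  obtain ⟨t, ht, hdc⟩ := Place.exists_dCoord_eq v
  have hstab := Place.derivation_stable v δ hRES hB
    (derivation_ne_zero_of_forall_D_eq δ hA4 hDx) ht
  have hgen : v.DCoordGenerates := Place.dCoordGenerates_of_derivation v δ hA4 hdc hstab.1
  refine ⟨hgen, fun {g f} hg hf => ?_⟩
  have : Nontrivial Ω[F⁄K] := ⟨⟨D K F x, 0, hDx⟩⟩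
  have hcoeff : v.differentialCoeff (g • D K F f) = g * (δ f / δ t) := by
    apply v.differentialCoeff_unique
    rw [hdc, D_eq_div_smul_D δ hA4 hstab.1 f, smul_smul]
  rw [Place.ordDifferential, hcoeff,
    v.ord_mul hg (Place.derivation_div_ne_zero v δ ht hstab hf),
    Place.ord_derivation_div v δ ht hstab hf]
  ring

/-- Same with (FT) instead of (BOUND). -/
theorem Place.ordDifferential_smul_D [CharZero K]
    (hRES : ∀ u ∈ v.toValuationSubring, ∃ c : K, v.adicValuation (u - algebraMap K F c) < 1)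
    (hFT : ∃ T : Finset F, (∀ τ ∈ T, τ ∈ v.toValuationSubring) ∧
      ∀ u ∈ v.toValuationSubring, ∃ r s : F, r ∈ Algebra.adjoin K (T : Set F) ∧
        s ∈ Algebra.adjoin K (T : Set F) ∧ v.adicValuation s = 1 ∧ u = r / s)
    (hA4 : ∀ y : F, D K F y = δ y • D K F x) (hDx : D K F x ≠ 0) :
    v.DCoordGenerates ∧ ∀ {g f : F}, g ≠ 0 → v.ord f ≠ 0 →
      v.ordDifferential (g • D K F f) = v.ord g + v.ord f - 1 :=
  Place.ordDifferential_smul_D_of_bound v δ hRES
    (Place.exists_adicValuation_derivation_le v δ hFT) hA4 hDx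

end Kaehler

end Fermat.Agent.X0
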