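import Mathlib
import Fermat.Prelude.Def_AlgebraicCurve_CanonicalDivisor
import Fermat.Agent.X0.Defs
import Fermat.Agent.X0.Alg.PlaceBasic
import Fermat.Agent.X0.Alg.KaehlerSepVar
import Fermat.Agent.X0.Alg.AffineModel
import Fermat.Agent.X0.Alg.DegOne
import Fermat.Agent.X0.Alg.OrdDx
import Fermat.Agent.X0.Alg.PrincipalDegCore
import Fermat.Agent.X0.Alg.RHAbstract

/-!
# X-ALG (A6): Riemann–Hurwitz count, from the fundamental identity as the only hypothesis
-/

set_option autoImplicit false

open AlgebraicCurve KaehlerDifferential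

namespace Fermat.Agent.X0

variable {K F : Type*} [Field K] [Field F] [Algebra K F] [IsAlgClosed K] [CharZero K]

omit [IsAlgClosed K] [CharZero K] in
theorem ne_algebraMap_of_isSepVar {x : F} {n : ℕ} (hx : IsSepVar K x n) (c : K) :
    x ≠ algebraMap K F c := by
  intro h
  exact hx.transcendental (h ▸ isAlgebraic_algebraMap c)

/-- Local orders of differentials at every place of a function field with a separating
variable. -/
theorem Place.ordDifferential_smul_D_of_isSepVar {x : F} {n : ℕ} (hx : IsSepVar K x n)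
    (v : Place K F) :
    v.DCoordGenerates ∧ ∀ {g f : F}, g ≠ 0 → v.ord f ≠ 0 →
      v.ordDifferential (g • D K F f) = v.ord g + v.ord f - 1 := by
  obtain ⟨δ, -, hδ⟩ := exists_derivation_of_isSepVar hx
  exact Place.ordDifferential_smul_D v δ
    (fun u hu => Place.exists_adicValuation_sub_lt_one hx v hu)
    (Place.exists_finset_adjoin hx v) hδ (D_ne_zero_of_isSepVar hx)

/-- Riemann–Hurwitz count, with the fundamental identity as hypothesis. -/
theorem degree_divisor_differential_of_fundId {x : F} {n : ℕ} (hx : IsSepVar K x n)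
    (hA2 : FundId K F)
    (hfin : ∀ a : K, (placesOver x a).Finite) (hfinInf : (placesOverInfty K x).Finite)
    (hsum : ∀ a : K, ∑ v ∈ (hfin a).toFinset, v.ord (x - algebraMap K F a) = n)
    (hsumInf : ∑ v ∈ hfinInf.toFinset, -v.ord x = n)
    (A : Finset K) (hA : ∀ (v : Place K F) (a : K), 2 ≤ v.ord (x - algebraMap K F a) → a ∈ A)
    (ω : Ω[F⁄K]) (hω : ω ≠ 0) (Dω : Divisor K F) (hD : ∀ v, Dω v = v.ordDifferential ω) :
    Divisor.degree Dω =
      -2 * (n : ℤ) + ∑ a ∈ A, ((n : ℤ) - (Nat.card (placesOver x a) : ℤ))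
        + ((n : ℤ) - (Nat.card (placesOverInfty K x) : ℤ)) := by
  have hdeg : ∀ v : Place K F, v.deg = 1 := fun v => Place.alg_deg_eq_one hx v
  refine degree_divisor_differential_of hdeg ?_ ?_ (span_D_eq_top_of_isSepVar hx) ?_
    hfin hfinInf hsum hsumInf A hA ω hω Dω hD
  · intro v hv
    exact Place.exists_ord_sub_pos_of_res v
      (fun u hu => Place.exists_adicValuation_sub_lt_one hx v hu)
      (ne_algebraMap_of_isSepVar hx) hv
  · intro v g f hg hf
    exact (Place.ordDifferential_smul_D_of_isSepVar hx v).2 hg hf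
  · intro g _
    exact exists_principal_divisor_of hA2 hdeg hx g

end Fermat.Agent.X0
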