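import Mathlib
import Fermat.Prelude.Def_AlgebraicCurve_CanonicalDivisor
import Fermat.Agent.X0.Defs
import Fermat.Agent.X0.Alg.Deg
import Fermat.Agent.X0.Alg.KaehlerSepVar
import Fermat.Agent.X0.Alg.PrincipalDegCore
import Fermat.Agent.X0.Alg.RHGlue

/-!
# X-ALG (A6): the Riemann–Hurwitz count (Skeleton interface `degree_divisor_differential`)

Together with `Deg.lean` (`finite_placesOver`, `finite_placesOverInfty`, `sum_ord_placesOver`,
`sum_ord_placesOverInfty`) and `KaehlerSepVar.lean` (`D_ne_zero_of_isSepVar`) this completes the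
X-ALG interface of `X0/WIP/Skeleton.lean`.
-/

set_option autoImplicit false

open AlgebraicCurve KaehlerDifferential

namespace Fermat.Agent.X0

variable {K F : Type*} [Field K] [Field F] [Algebra K F] [IsAlgClosed K] [CharZero K]

/-- The fundamental identity for every separating variable of `F/K`. -/
theorem fundId : FundId K F := fun _ _ hy =>
  ⟨finite_placesOver hy 0, finite_placesOverInfty hy, sum_ord_placesOver hy 0,
    sum_ord_placesOverInfty hy⟩

/-- Every nonzero function has a principal divisor, of degree `0`. -/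
theorem exists_principal_divisor {x : F} {n : ℕ} (hx : IsSepVar K x n) (g : F) :
    ∃ G : Divisor K F, (∀ v, G v = v.ord g) ∧ Divisor.degree G = 0 :=
  exists_principal_divisor_of fundId (fun v => Place.alg_deg_eq_one hx v) hx g

/-- (ALG-RH) Riemann–Hurwitz count: for every nonzero differential `ω` with divisor `Dω`,
`deg Dω = -2n + ∑_{a ∈ A} (n - #{v | x(v) = a}) + (n - #{poles of x})`, where `A` contains every
finite branch value of `x`. -/
theorem degree_divisor_differential {x : F} {n : ℕ} (hx : IsSepVar K x n)
    (A : Finset K) (hA : ∀ (v : Place K F) (a : K), 2 ≤ v.ord (x - algebraMap K F a) → a ∈ A)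
    (ω : Ω[F⁄K]) (hω : ω ≠ 0) (Dω : Divisor K F) (hD : ∀ v, Dω v = v.ordDifferential ω) :
    Divisor.degree Dω =
      -2 * (n : ℤ) + ∑ a ∈ A, ((n : ℤ) - (Nat.card (placesOver x a) : ℤ))
        + ((n : ℤ) - (Nat.card (placesOverInfty K x) : ℤ)) :=
  degree_divisor_differential_of_fundId hx fundId (finite_placesOver hx)
    (finite_placesOverInfty hx) (sum_ord_placesOver hx) (sum_ord_placesOverInfty hx)
    A hA ω hω Dω hD

end Fermat.Agent.X0
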