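import Mathlib
import Fermat.Agent.X0.Defs
import Fermat.Agent.X0.Alg.Deg
import Fermat.Agent.X0.Alg.AffineModel
import Fermat.Agent.X0.Alg.PrincipalDegCore
import Fermat.Agent.X0.Alg.RiemannHurwitz

/-!
# X-ALG (A3): principal divisors have finite support and degree zero

`K` algebraically closed of characteristic `0`, `F/K` a function field in one variable (`x` a
separating variable). `fundId : FundId K F` and `exists_principal_divisor` live in
`RiemannHurwitz.lean` (landed at the same minute; this file imports it to avoid a name clash).
Here, for `g : F`:

* `finite_ord_support` : `{v | v.ord g ≠ 0}` is finite;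
* `sum_ord_eq_zero` : `∑ v ∈ s, v.ord g = 0` for every finset `s` containing the support;
* `hasPrincipalDivisors` : the prelude's class `HasPrincipalDivisors K F`.
-/

set_option autoImplicit false

namespace Fermat.Agent.X0

open AlgebraicCurve IntermediateField

variable {K F : Type*} [Field K] [Field F] [Algebra K F] [IsAlgClosed K] [CharZero K]

variable {x : F} {n : ℕ}

/-- Zeros and poles of a function: finite support. -/
theorem finite_ord_support (hx : IsSepVar K x n) (g : F) :
    {v : Place K F | v.ord g ≠ 0}.Finite :=
  finite_ord_support_of fundId hx g

/-- `∑ v ord_v g = 0`, the sum over any finite set of places containing all zeros and poles. -/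
theorem sum_ord_eq_zero (hx : IsSepVar K x n) (g : F) (s : Finset (Place K F))
    (hs : ∀ v : Place K F, v.ord g ≠ 0 → v ∈ s) : ∑ v ∈ s, v.ord g = 0 :=
  sum_ord_eq_zero_of fundId hx g s hs

/-- The prelude's class `HasPrincipalDivisors` for a function field in one variable over an
algebraically closed field of characteristic zero. -/
theorem hasPrincipalDivisors (hx : IsSepVar K x n) : HasPrincipalDivisors K F :=
  hasPrincipalDivisors_of fundId (Place.alg_deg_eq_one hx) hx

end Fermat.Agent.X0
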