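import Mathlib
import Fermat.Agent.X0.Defs
import Fermat.Agent.X0.Alg.SepVarBasic
import Fermat.Agent.X0.Alg.PrincipalDegCore

/-!
# X-ALG (A2, reduction): the fundamental identity at the value `0` implies all of A2

`FundIdZero K F` : for every separating variable `y` of degree `m`, the zeros of `y` are finite in
number and their multiplicities add up to `m`. From it (applied to `x - a` and to `x⁻¹`) we get
the four interface lemmas of the X0 skeleton, in `_of` form, and `FundId K F`.
-/

set_option autoImplicit false

namespace Fermat.Agent.X0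

open AlgebraicCurve IntermediateField

variable (K F : Type*) [Field K] [Field F] [Algebra K F]

/-- The fundamental identity at the value `0`, for every separating variable. -/
def FundIdZero : Prop :=
  ∀ (y : F) (m : ℕ), IsSepVar K y m →
    ∃ h0 : (placesOver y (0 : K)).Finite, ∑ v ∈ h0.toFinset, v.ord (y - algebraMap K F 0) = m

variable {K F}

/-- Variant of the hypothesis with `v.ord y` in place of `v.ord (y - 0)`. -/
theorem fundIdZero_of_sum_ord
    (h : ∀ (y : F) (m : ℕ), IsSepVar K y m →
      ∃ h0 : (placesOver y (0 : K)).Finite, ∑ v ∈ h0.toFinset, v.ord y = m) :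
    FundIdZero K F := by
  intro y m hy
  obtain ⟨h0, hs⟩ := h y m hy
  refine ⟨h0, ?_⟩
  rw [map_zero, sub_zero]
  exact hs

variable {x : F} {n : ℕ}

theorem finite_placesOver_of (h : FundIdZero K F) (hx : IsSepVar K x n) (a : K) :
    (placesOver x a).Finite := by
  obtain ⟨h0, -⟩ := h _ n (isSepVar_sub_const hx a)
  rw [placesOver_eq_placesOver_sub_zero]
  exact h0

theorem finite_placesOverInfty_of (h : FundIdZero K F) (hx : IsSepVar K x n) :
    (placesOverInfty K x).Finite := by
  obtain ⟨h0, -⟩ := h _ n (isSepVar_inv hx)
  rw [placesOverInfty_eq_placesOver_inv_zero]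
  exact h0

theorem sum_ord_placesOver_of (h : FundIdZero K F) (hx : IsSepVar K x n) (a : K)
    (hfin : (placesOver x a).Finite) :
    ∑ v ∈ hfin.toFinset, v.ord (x - algebraMap K F a) = n := by
  obtain ⟨h0, hs⟩ := h _ n (isSepVar_sub_const hx a)
  have hset : hfin.toFinset = h0.toFinset := by
    ext v
    rw [Set.Finite.mem_toFinset, Set.Finite.mem_toFinset, placesOver_eq_placesOver_sub_zero]
  rw [hset, ← hs]
  refine Finset.sum_congr rfl fun v _ => ?_
  rw [map_zero, sub_zero]

theorem sum_ord_placesOverInfty_of (h : FundIdZero K F) (hx : IsSepVar K x n)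
    (hfin : (placesOverInfty K x).Finite) :
    ∑ v ∈ hfin.toFinset, -v.ord x = n := by
  obtain ⟨h0, hs⟩ := h _ n (isSepVar_inv hx)
  have hset : hfin.toFinset = h0.toFinset := by
    ext v
    rw [Set.Finite.mem_toFinset, Set.Finite.mem_toFinset, placesOverInfty_eq_placesOver_inv_zero]
  rw [hset, ← hs]
  refine Finset.sum_congr rfl fun v _ => ?_
  rw [map_zero, sub_zero, Place.ord_inv]

/-- `FundIdZero` implies the two-sided hypothesis `FundId` used for principal divisors. -/
theorem fundId_of_fundIdZero (h : FundIdZero K F) : FundId K F := by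
  intro y m hy
  exact ⟨finite_placesOver_of h hy 0, finite_placesOverInfty_of h hy,
    sum_ord_placesOver_of h hy 0 _, sum_ord_placesOverInfty_of h hy _⟩

end Fermat.Agent.X0
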