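import Mathlib
import Fermat.Prelude.Def_AlgebraicCurve_CanonicalDivisor
import Fermat.Agent.X0.Defs
import Fermat.Agent.X0.Alg.PlaceBasic

/-!
# X-ALG: the Dedekind model attached to a separating variable

For a separating variable `x` of `F/K` (characteristic `0`), the integral closure `R` of `K[x]` in
`F` is a Dedekind domain, of finite type over `K`, with fraction field `F`, contained in the
valuation ring of every place at which `x` is regular.
-/

set_option autoImplicit false

open AlgebraicCurve IntermediateField

open scoped IntermediateField.algebraAdjoinAdjoin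

namespace Fermat.Agent.X0

variable {K F : Type*} [Field K] [Field F] [Algebra K F]

/-- `K[x]` (as a subalgebra of `F`) is a principal ideal domain when `x` is transcendental. -/
theorem isPrincipalIdealRing_adjoin_singleton {x : F} (hx : Transcendental K x) :
    IsPrincipalIdealRing (Algebra.adjoin K {x}) := by
  have hinj : Function.Injective (Polynomial.aeval (R := K) x) :=
    transcendental_iff_injective.mp hx
  let e : Polynomial K ≃ₐ[K] (Polynomial.aeval (R := K) x).range := AlgEquiv.ofInjective _ hinj
  have hrange : (Polynomial.aeval (R := K) x).range = Algebra.adjoin K {x} :=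
    (Algebra.adjoin_singleton_eq_range_aeval K x).symm
  rw [← hrange]
  exact IsPrincipalIdealRing.of_surjective e.toRingEquiv.toRingHom e.surjective

/-- The valuation ring of a place, as a `K`-subalgebra of `F`. -/
def Place.toSubalgebra (v : Place K F) : Subalgebra K F :=
  { v.toValuationSubring.toSubring with algebraMap_mem' := v.algebraMap_mem' }

theorem Place.mem_toSubalgebra (v : Place K F) {f : F} :
    f ∈ Place.toSubalgebra v ↔ f ∈ v.toValuationSubring := Iff.rfl

/-- An element of `F` integral over a subalgebra contained in `O_v` lies in `O_v`. -/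
theorem Place.mem_of_isIntegral_of_le (v : Place K F) (A : Subalgebra K F)
    (hA : A ≤ Place.toSubalgebra v) {r : F} (hr : IsIntegral A r) :
    r ∈ v.toValuationSubring := by
  let φ : A →+* v.toValuationSubring :=
    { toFun := fun a => ⟨(a : F), hA a.2⟩
      map_one' := rfl
      map_mul' := fun _ _ => rfl
      map_zero' := rfl
      map_add' := fun _ _ => rfl }
  let _ : Algebra A v.toValuationSubring := φ.toAlgebra
  have : IsScalarTower A v.toValuationSubring F :=
    IsScalarTower.of_algebraMap_eq fun _ => rfl
  have h1 : IsIntegral v.toValuationSubring r := hr.tower_top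
  obtain ⟨y, hy⟩ := (IsIntegrallyClosed.isIntegral_iff (R := v.toValuationSubring) (K := F)).mp h1
  rw [← hy]
  exact y.2

/-- **The Dedekind model** attached to a separating variable `x`. -/
theorem exists_dedekind_model [CharZero K] {x : F} {n : ℕ} (hx : IsSepVar K x n) :
    ∃ R : Subalgebra K F, IsDedekindDomain R ∧ IsFractionRing R F ∧ Algebra.FiniteType K R ∧
      ∀ v : Place K F, 0 ≤ v.ord x → ∀ r : R, (r : F) ∈ v.toValuationSubring := by
  have hfin : FiniteDimensional K⟮x⟯ F := hx.finite
  have hPID : IsPrincipalIdealRing (Algebra.adjoin K {x}) :=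
    isPrincipalIdealRing_adjoin_singleton hx.transcendental
  have hsep : Algebra.IsSeparable K⟮x⟯ F := inferInstance
  have hDed : IsDedekindDomain (integralClosure (Algebra.adjoin K {x}) F) :=
    integralClosure.isDedekindDomain (Algebra.adjoin K {x}) K⟮x⟯ F
  have hFrac : IsFractionRing (integralClosure (Algebra.adjoin K {x}) F) F :=
    integralClosure.isFractionRing_of_finite_extension K⟮x⟯ F
  have hModFin : Module.Finite (Algebra.adjoin K {x}) (integralClosure (Algebra.adjoin K {x}) F) :=
    IsIntegralClosure.finite (Algebra.adjoin K {x}) K⟮x⟯ F _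
  have hFT1 : Algebra.FiniteType K (Algebra.adjoin K {x}) :=
    Algebra.FiniteType.adjoin_of_finite (Set.finite_singleton x)
  have hFT2 : Algebra.FiniteType (Algebra.adjoin K {x})
      (integralClosure (Algebra.adjoin K {x}) F) := inferInstance
  have hFT : Algebra.FiniteType K (integralClosure (Algebra.adjoin K {x}) F) :=
    Algebra.FiniteType.trans hFT1 hFT2
  refine ⟨(integralClosure (Algebra.adjoin K {x}) F).restrictScalars K, hDed, hFrac, hFT, ?_⟩
  intro v hv r
  have hxmem : x ∈ v.toValuationSubring := Place.mem_of_ord_nonneg v hv
  have hle : Algebra.adjoin K {x} ≤ Place.toSubalgebra v :=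
    Algebra.adjoin_le (Set.singleton_subset_iff.mpr hxmem)
  exact Place.mem_of_isIntegral_of_le v _ hle r.2

end Fermat.Agent.X0
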